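import Fermat.Agent.FontaineWintenberger.Congr
import Fermat.Agent.TateSen.Main

/-!
# The Galois action on the tilt

The group of `ℚ_p` acts on the tilt term by term, isometrically and faithfully, with closed
stabilisers.
-/

set_option autoImplicit false
set_option linter.unusedSectionVars false

noncomputable section

open Filter FA.TateSen UniformSpace
open scoped Topology

namespace FA.FontaineWintenberger

variable {p : ℕ} [hp : Fact p.Prime]

local notation "C" => ℂ_[p]
local notation "Ω" => PadicAlgCl p
local notation "G" => PadicAlgCl p ≃ₐ[ℚ_[p]] PadicAlgCl p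

theorem Near.gal {u v : ℕ → C} (h : Near u v) (σ : G) :
    Near (fun n => gal σ (u n)) fun n => gal σ (v n) := by
  obtain ⟨θ, h0, h1, h⟩ := h
  exact ⟨θ, h0, h1, h.mono fun n hn => by rwa [← map_sub, norm_galC]⟩

/-- An automorphism applied term by term. -/
def flatGalFun (σ : G) (x : Flat p) : Flat p :=
  ⟨fun n => gal σ (x.seq n), fun n => by rw [← map_pow, seq_pow]⟩

theorem flatGalFun_seq (σ : G) (x : Flat p) (n : ℕ) :
    (flatGalFun σ x).seq n = gal σ (x.seq n) := rfl

theorem flatGalFun_add (σ : G) (x y : Flat p) :
    flatGalFun σ (x + y) = flatGalFun σ x + flatGalFun σ y := by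
  refine flat_eq_of_near (((near_add x y).gal σ).trans ?_)
  simp only [map_add]
  exact (near_add (flatGalFun σ x) (flatGalFun σ y)).symm

/-- The action of an automorphism on the tilt. -/
def flatGal (σ : G) : Flat p →+* Flat p where
  toFun := flatGalFun σ
  map_one' := seq_injective (funext fun n => by rw [flatGalFun_seq, seq_one, map_one])
  map_mul' x y := seq_injective (funext fun n => by
    rw [flatGalFun_seq, seq_mul, map_mul, seq_mul, flatGalFun_seq, flatGalFun_seq])
  map_zero' := seq_injective (funext fun n => by rw [flatGalFun_seq, seq_zero, map_zero])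
  map_add' := flatGalFun_add σ

theorem flatGal_seq (σ : G) (x : Flat p) (n : ℕ) : (flatGal σ x).seq n = gal σ (x.seq n) := rfl

theorem flatGal_one (x : Flat p) : flatGal (1 : G) x = x :=
  seq_injective (funext fun n => by rw [flatGal_seq, gal_one])

theorem flatGal_mul (σ τ : G) (x : Flat p) : flatGal (σ * τ) x = flatGal σ (flatGal τ x) :=
  seq_injective (funext fun n => by rw [flatGal_seq, flatGal_seq, flatGal_seq, gal_mul])

theorem flatGal_inv_apply (σ : G) (x : Flat p) : flatGal σ⁻¹ (flatGal σ x) = x := by
  rw [← flatGal_mul, inv_mul_cancel, flatGal_one]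

theorem flatGal_apply_inv (σ : G) (x : Flat p) : flatGal σ (flatGal σ⁻¹ x) = x := by
  rw [← flatGal_mul, mul_inv_cancel, flatGal_one]

theorem norm_flatGal (σ : G) (x : Flat p) : ‖flatGal σ x‖ = ‖x‖ := by
  rw [norm_flat_def, norm_flat_def, flatGal_seq, norm_galC]

theorem isometry_flatGal (σ : G) : Isometry (flatGal σ : Flat p → Flat p) :=
  AddMonoidHomClass.isometry_of_norm (flatGal σ) (norm_flatGal σ)

/-- The action is faithful. -/
theorem eq_one_of_flatGal {σ : G} (h : ∀ x : Flat p, flatGal σ x = x) : σ = 1 := by
  refine AlgEquiv.ext fun a => ?_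
  obtain ⟨x, hx⟩ := exists_seq_zero_eq (a : C)
  have h0 := congrArg (fun y : Flat p => y.seq 0) (h x)
  simp only [flatGal_seq, hx, gal_coe] at h0
  exact Completion.coe_injective Ω h0

/-- The stabilisers are closed. -/
theorem isClosed_flatGal_stabilizer (x : Flat p) : IsClosed {σ : G | flatGal σ x = x} := by
  have e : {σ : G | flatGal σ x = x} = ⋂ n, {σ : G | gal σ (x.seq n) = x.seq n} := by
    ext σ
    simp only [Set.mem_ofPred_eq, Set.mem_iInter]
    exact ⟨fun h n => congrArg (fun y : Flat p => y.seq n) h,
      fun h => seq_injective (funext fun n => h n)⟩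
  rw [e]
  exact isClosed_iInter fun n => isClosed_eq (continuous_gal_apply _) continuous_const

end FA.FontaineWintenberger
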