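import Fermat.Agent.FontaineWintenberger.Complete
import Fermat.Agent.FontaineWintenberger.Action
import Mathlib.RingTheory.LaurentSeries

/-!
# The Laurent series field inside the tilt

A compatible system of roots of unity gives `ε`, and `t = ε - 1` has absolute value less than one.
The power series in `t` over `ZMod p` converge: this embeds the Laurent series as a complete
subfield, fixed by the group of the cyclotomic tower.
-/

set_option autoImplicit false
set_option linter.unusedSectionVars false

noncomputable section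

open Filter FA.TateSen Finset
open scoped Topology

namespace FA.FontaineWintenberger

variable (p : ℕ) [hp : Fact p.Prime]

local notation "C" => ℂ_[p]
local notation "Ω" => PadicAlgCl p
local notation "G" => PadicAlgCl p ≃ₐ[ℚ_[p]] PadicAlgCl p

/-- A compatible system of roots of unity. -/
def zetaSeq : ℕ → Ω
  | 0 => 1
  | 1 => (exists_primitive p 1).choose
  | n + 2 => (IsAlgClosed.exists_pow_nat_eq (zetaSeq (n + 1)) hp.out.pos).choose

variable {p}

theorem zetaSeq_primitive : ∀ n, IsPrimitiveRoot (zetaSeq p n) (p ^ n)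
  | 0 => by rw [zetaSeq, pow_zero]; exact IsPrimitiveRoot.one
  | 1 => by rw [zetaSeq]; exact (exists_primitive p 1).choose_spec
  | n + 2 => by
    have h : zetaSeq p (n + 2) ^ p = zetaSeq p (n + 1) := by
      rw [zetaSeq]
      exact (IsAlgClosed.exists_pow_nat_eq (zetaSeq p (n + 1)) hp.out.pos).choose_spec
    have ih := zetaSeq_primitive (n + 1)
    rw [IsPrimitiveRoot.iff_orderOf]
    refine orderOf_eq_prime_pow ?_ ?_
    · rw [pow_succ', pow_mul, h]
      exact ih.pow_ne_one_of_pos_of_lt (pow_ne_zero _ hp.out.ne_zero)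
        (pow_lt_pow_right₀ hp.out.one_lt n.lt_succ_self)
    · rw [pow_succ', pow_mul, h, ih.pow_eq_one]

theorem zetaSeq_pow : ∀ n, zetaSeq p (n + 1) ^ p = zetaSeq p n
  | 0 => by simpa [zetaSeq] using (zetaSeq_primitive (p := p) 1).pow_eq_one
  | n + 1 => by
    rw [zetaSeq]
    exact (IsAlgClosed.exists_pow_nat_eq (zetaSeq p (n + 1)) hp.out.pos).choose_spec

variable (p) in
/-- The element given by the roots of unity. -/
def eps : Flat p :=
  ⟨fun n => (zetaSeq p n : C), fun n => by
    simp only [PadicComplex.coe_eq, ← map_pow, zetaSeq_pow]⟩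

theorem eps_seq (n : ℕ) : (eps p).seq n = (zetaSeq p n : C) := rfl

theorem norm_eps : ‖eps p‖ = 1 := by
  rw [norm_flat_def, eps_seq, zetaSeq, PadicComplex.coe_eq, map_one, norm_one]

variable (p) in
/-- The variable. -/
def tee : Flat p := eps p - 1

theorem norm_tee_le : ‖tee p‖ ≤ 1 := norm_sub_le_of_le norm_eps.le norm_one.le

theorem tee_seq_modEqP (n : ℕ) : ModEqP p ((tee p).seq n) ((zetaSeq p n - 1 : Ω) : C) := by
  have h := seq_sub_modEqP (p := p) norm_eps.le norm_one.le n
  rw [seq_one, eps_seq] at h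
  simpa [tee, PadicComplex.coe_eq] using h

theorem tee_ne_zero : tee p ≠ 0 := by
  intro h
  have h1 := congrArg (fun x : Flat p => x.seq 1) (sub_eq_zero.1 h)
  simp only [eps_seq, seq_one, PadicComplex.coe_eq] at h1
  refine (zetaSeq_primitive (p := p) 1).ne_one (by rw [pow_one]; exact hp.out.one_lt) ?_
  exact (algebraMap Ω C).injective (by rw [h1, map_one])

theorem norm_tee_lt : ‖tee p‖ < 1 := by
  have h1 : ‖(tee p).seq 1‖ < 1 := by
    rw [show (tee p).seq 1 = ((tee p).seq 1 - ((zetaSeq p 1 - 1 : Ω) : C)) +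
      ((zetaSeq p 1 - 1 : Ω) : C) by ring]
    refine (IsUltrametricDist.norm_add_le_max _ _).trans_lt
      (max_lt (lt_of_le_of_lt (tee_seq_modEqP 1) norm_p_C_lt) ?_)
    rw [PadicComplex.norm_extends]
    exact norm_sub_one_lt norm_p_lt_one (n := 0) (by simpa using zetaSeq_primitive (p := p) 1)
  rw [← norm_seq_pow (tee p) 1]
  exact pow_lt_one₀ (norm_nonneg _) h1 (pow_ne_zero _ hp.out.ne_zero)

variable (p) in
/-- The prime field inside the tilt. -/
def primeHom : ZMod p →+* Flat p := ZMod.castHom dvd_rfl _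

theorem norm_primeHom (a : ZMod p) : ‖primeHom p a‖ = if a = 0 then 0 else 1 := by
  split_ifs with h
  · rw [h, map_zero, norm_zero]
  · refine (pow_eq_one_iff_of_nonneg (norm_nonneg (primeHom p a))
      (Nat.sub_ne_zero_of_lt hp.out.one_lt)).1 ?_
    rw [← norm_pow, ← map_pow, ZMod.pow_card_sub_one_eq_one h, map_one, norm_one]

theorem norm_primeHom_le (a : ZMod p) : ‖primeHom p a‖ ≤ 1 := by
  rw [norm_primeHom]; split_ifs <;> norm_num

/-- The terms of a series. -/
def serTerm (a : ℕ → ZMod p) (i : ℕ) : Flat p := primeHom p (a i) * tee p ^ i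

theorem norm_serTerm_le (a : ℕ → ZMod p) (i : ℕ) : ‖serTerm a i‖ ≤ ‖tee p‖ ^ i := by
  rw [serTerm, norm_mul, norm_pow]
  exact mul_le_of_le_one_left (pow_nonneg (norm_nonneg _) _) (norm_primeHom_le _)

theorem summable_norm_serTerm (a : ℕ → ZMod p) : Summable fun i => ‖serTerm a i‖ :=
  Summable.of_nonneg_of_le (fun _ => norm_nonneg _) (norm_serTerm_le a)
    (summable_geometric_of_lt_one (norm_nonneg _) norm_tee_lt)

theorem summable_serTerm (a : ℕ → ZMod p) : Summable (serTerm a) :=
  (summable_norm_serTerm a).of_norm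

/-- The sum of a series. -/
def serSum (a : ℕ → ZMod p) : Flat p := ∑' i, serTerm a i

theorem norm_serSum_le (a : ℕ → ZMod p) : ‖serSum a‖ ≤ 1 :=
  IsUltrametricDist.norm_tsum_le_of_forall_le_of_nonneg zero_le_one fun i =>
    (norm_serTerm_le a i).trans (pow_le_one₀ (norm_nonneg _) norm_tee_le)

variable (p) in
/-- **The power series in the variable.** -/
def powerHom : PowerSeries (ZMod p) →+* Flat p where
  toFun f := serSum fun i => PowerSeries.coeff i f
  map_one' := by
    rw [serSum, tsum_eq_single 0 fun i hi => by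
      rw [serTerm, PowerSeries.coeff_one, if_neg hi, map_zero, zero_mul]]
    rw [serTerm, PowerSeries.coeff_one, if_pos rfl, map_one, pow_zero, mul_one]
  map_mul' f g := by
    rw [serSum, serSum, serSum, tsum_mul_tsum_eq_tsum_sum_antidiagonal_of_summable_norm
      (summable_norm_serTerm _) (summable_norm_serTerm _)]
    refine tsum_congr fun n => ?_
    rw [serTerm, PowerSeries.coeff_mul, map_sum, sum_mul]
    refine sum_congr rfl fun ij hij => ?_
    rw [serTerm, serTerm, map_mul, ← mem_antidiagonal.1 hij, pow_add, mul_mul_mul_comm]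
  map_zero' := by
    simp only [serSum, serTerm, map_zero, zero_mul, tsum_zero]
  map_add' f g := by
    rw [serSum, serSum, serSum, ← (summable_serTerm _).tsum_add (summable_serTerm _)]
    refine tsum_congr fun i => ?_
    rw [serTerm, serTerm, serTerm, map_add, map_add, add_mul]

theorem powerHom_apply (f : PowerSeries (ZMod p)) :
    powerHom p f = serSum fun i => PowerSeries.coeff i f := rfl

theorem powerHom_X : powerHom p PowerSeries.X = tee p := by
  rw [powerHom_apply, serSum, tsum_eq_single 1 fun i hi => by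
    rw [serTerm, PowerSeries.coeff_X, if_neg hi, map_zero, zero_mul]]
  rw [serTerm, PowerSeries.coeff_X, if_pos rfl, map_one, pow_one, one_mul]

theorem norm_powerHom_of_constantCoeff {f : PowerSeries (ZMod p)}
    (hf : PowerSeries.constantCoeff f ≠ 0) : ‖powerHom p f‖ = 1 := by
  have hs := summable_serTerm (p := p) fun i => PowerSeries.coeff i f
  rw [powerHom_apply, serSum, hs.tsum_eq_zero_add]
  set a := serTerm (fun i => PowerSeries.coeff i f) 0
  set b := ∑' i, serTerm (fun i => PowerSeries.coeff i f) (i + 1)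
  have ha : ‖a‖ = 1 := by
    rw [show a = primeHom p (PowerSeries.coeff 0 f) * tee p ^ 0 from rfl, pow_zero, mul_one,
      norm_primeHom, if_neg (by rwa [PowerSeries.coeff_zero_eq_constantCoeff_apply])]
  have hb : ‖b‖ ≤ ‖tee p‖ :=
    IsUltrametricDist.norm_tsum_le_of_forall_le_of_nonneg (norm_nonneg _) fun i =>
      (norm_serTerm_le _ _).trans (pow_le_of_le_one (norm_nonneg _) norm_tee_le i.succ_ne_zero)
  have hlt : ‖b‖ < ‖a‖ := ha.symm ▸ hb.trans_lt norm_tee_lt
  rw [IsUltrametricDist.norm_add_eq_max_of_norm_ne_norm hlt.ne', max_eq_left hlt.le, ha]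

theorem exists_powerHom_eq (f : PowerSeries (ZMod p)) (hf : f ≠ 0) :
    ∃ (k : ℕ) (u : (PowerSeries (ZMod p))ˣ), f = PowerSeries.X ^ k * (u : PowerSeries (ZMod p)) ∧
      ‖powerHom p f‖ = ‖tee p‖ ^ k := by
  have hc : PowerSeries.constantCoeff (PowerSeries.divXPowOrder f) ≠ 0 := by
    rwa [Ne, PowerSeries.constantCoeff_divXPowOrder_eq_zero_iff]
  obtain ⟨u, hu⟩ : IsUnit (PowerSeries.divXPowOrder f) :=
    PowerSeries.isUnit_iff_constantCoeff.2 (Ne.isUnit hc)
  refine ⟨f.order.toNat, u, ?_, ?_⟩
  · rw [hu, PowerSeries.X_pow_order_mul_divXPowOrder]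
  · conv_lhs => rw [← PowerSeries.X_pow_order_mul_divXPowOrder (f := f)]
    rw [map_mul, map_pow, powerHom_X, norm_mul, norm_pow, norm_powerHom_of_constantCoeff hc,
      mul_one]

theorem powerHom_injective : Function.Injective (powerHom p) := by
  refine (injective_iff_map_eq_zero _).2 fun f hf => by_contra fun hne => ?_
  obtain ⟨k, u, -, hk⟩ := exists_powerHom_eq f hne
  rw [hf, norm_zero] at hk
  exact pow_ne_zero k (norm_ne_zero_iff.2 tee_ne_zero) hk.symm

variable (p) in
/-- **The Laurent series in the variable.** -/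
def laurentHom : LaurentSeries (ZMod p) →+* Flat p :=
  IsFractionRing.lift (A := PowerSeries (ZMod p)) (powerHom_injective (p := p))

theorem laurentHom_algebraMap (f : PowerSeries (ZMod p)) :
    laurentHom p (algebraMap _ _ f) = powerHom p f :=
  IsFractionRing.lift_algebraMap _ f

variable (p) in
/-- The Laurent series field. -/
def baseField : Subfield (Flat p) := (laurentHom p).fieldRange

theorem powerHom_mem (f : PowerSeries (ZMod p)) : powerHom p f ∈ baseField p :=
  ⟨_, laurentHom_algebraMap f⟩

theorem tee_mem : tee p ∈ baseField p := powerHom_X (p := p) ▸ powerHom_mem _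

theorem exists_div_eq {x : Flat p} (hx : x ∈ baseField p) :
    ∃ f g : PowerSeries (ZMod p), g ≠ 0 ∧ x = powerHom p f / powerHom p g := by
  obtain ⟨y, rfl⟩ := hx
  obtain ⟨f, g, hg, rfl⟩ := IsFractionRing.div_surjective (A := PowerSeries (ZMod p)) y
  exact ⟨f, g, nonZeroDivisors.ne_zero hg, by
    rw [map_div₀, laurentHom_algebraMap, laurentHom_algebraMap]⟩

/-- The integral elements of the Laurent series field are the power series. -/
theorem exists_powerHom_of_norm_le {x : Flat p} (hx : x ∈ baseField p) (h : ‖x‖ ≤ 1) :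
    ∃ f, powerHom p f = x := by
  obtain ⟨f, g, hg, rfl⟩ := exists_div_eq hx
  rcases eq_or_ne f 0 with rfl | hf
  · exact ⟨0, by rw [map_zero, zero_div]⟩
  obtain ⟨a, u, hfe, hfn⟩ := exists_powerHom_eq f hf
  obtain ⟨b, v, hge, hgn⟩ := exists_powerHom_eq g hg
  have htp : 0 < ‖tee p‖ := norm_pos_iff.2 tee_ne_zero
  rw [norm_div, hfn, hgn, div_le_one (pow_pos htp _),
    pow_le_pow_iff_right_of_lt_one₀ htp norm_tee_lt] at h
  obtain ⟨c, rfl⟩ := Nat.exists_eq_add_of_le h
  refine ⟨PowerSeries.X ^ c * (u : PowerSeries (ZMod p)) * (↑v⁻¹ : PowerSeries (ZMod p)), ?_⟩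
  rw [eq_div_iff ((map_ne_zero_iff _ powerHom_injective).2 hg), ← map_mul, hge, hfe, pow_add]
  congr 1
  linear_combination (PowerSeries.X ^ b * PowerSeries.X ^ c * (u : PowerSeries (ZMod p))) *
    v.inv_mul

theorem isClosed_range_powerHom : IsClosed (Set.range (powerHom p)) := by
  let _ : TopologicalSpace (ZMod p) := ⊥
  have : DiscreteTopology (ZMod p) := ⟨rfl⟩
  have hr : Set.range (powerHom p) = Set.range (serSum (p := p)) := by
    refine Set.Subset.antisymm ?_ ?_
    · rintro _ ⟨f, rfl⟩
      exact ⟨_, rfl⟩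
    · rintro _ ⟨a, rfl⟩
      refine ⟨PowerSeries.mk a, ?_⟩
      rw [powerHom_apply]
      simp only [PowerSeries.coeff_mk]
  have hc : Continuous (serSum (p := p)) := by
    refine continuous_tsum (u := fun i => ‖tee p‖ ^ i) (fun i => ?_)
      (summable_geometric_of_lt_one (norm_nonneg _) norm_tee_lt) fun i a => norm_serTerm_le a i
    exact (continuous_of_discreteTopology (f := fun c : ZMod p => primeHom p c * tee p ^ i)).comp
      (continuous_apply i)
  rw [hr]
  exact (isCompact_range hc).isClosed

/-- The Laurent series field is closed. -/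
theorem isClosed_baseField : IsClosed (baseField p : Set (Flat p)) := by
  refine isClosed_of_closure_subset fun x hx => ?_
  obtain ⟨u, hu, hux⟩ := mem_closure_iff_seq_limit.1 hx
  obtain ⟨k, hk⟩ := exists_pow_lt_of_lt_one (x := 1 / (‖x‖ + 1)) (by positivity)
    (norm_tee_lt (p := p))
  have hlim : Tendsto (fun i => tee p ^ k * u i) atTop (𝓝 (tee p ^ k * x)) := hux.const_mul _
  have hx1 : ‖tee p ^ k * x‖ < 1 := by
    rw [norm_mul, norm_pow]
    calc ‖tee p‖ ^ k * ‖x‖ ≤ 1 / (‖x‖ + 1) * ‖x‖ :=
          mul_le_mul_of_nonneg_right hk.le (norm_nonneg _)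
      _ < 1 := by rw [div_mul_eq_mul_div, one_mul, div_lt_one (by positivity)]; linarith
  have hmem : tee p ^ k * x ∈ Set.range (powerHom p) :=
    isClosed_range_powerHom.mem_of_tendsto hlim
      ((hlim.norm.eventually (gt_mem_nhds hx1)).mono fun i hi => by
        obtain ⟨f, hf⟩ := exists_powerHom_of_norm_le
          ((baseField p).mul_mem ((baseField p).pow_mem tee_mem k) (hu i)) hi.le
        exact ⟨f, hf⟩)
  obtain ⟨f, hf⟩ := hmem
  have hxe : x = (tee p ^ k)⁻¹ * powerHom p f := by
    rw [hf, inv_mul_cancel_left₀ (pow_ne_zero _ tee_ne_zero)]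
  rw [hxe]
  exact (baseField p).mul_mem ((baseField p).inv_mem ((baseField p).pow_mem tee_mem k))
    (powerHom_mem f)

theorem flatGal_eps {σ : G} (h : σ ∈ (cycInf p).fixingSubgroup) : flatGal σ (eps p) = eps p := by
  refine seq_injective (funext fun n => ?_)
  rw [flatGal_seq, eps_seq, gal_coe, fixed_of_le h (cycLevel_le_cycInf n
    (IntermediateField.subset_adjoin _ _ (zetaSeq_primitive n).pow_eq_one))]

/-- **The group of the cyclotomic tower fixes the Laurent series.** -/
theorem flatGal_baseField {σ : G} (h : σ ∈ (cycInf p).fixingSubgroup) {x : Flat p}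
    (hx : x ∈ baseField p) : flatGal σ x = x := by
  have ht : flatGal σ (tee p) = tee p := by rw [tee, map_sub, flatGal_eps h, map_one]
  have hpw : ∀ f, flatGal σ (powerHom p f) = powerHom p f := fun f => by
    have h1 := (summable_serTerm (p := p) fun i => PowerSeries.coeff i f).hasSum.map
      (flatGal σ) (isometry_flatGal σ).continuous
    rw [powerHom_apply, serSum]
    refine h1.tsum_eq.symm.trans (tsum_congr fun i => ?_)
    rw [Function.comp_apply, serTerm, map_mul, map_pow, ht,
      show flatGal σ (primeHom p (PowerSeries.coeff i f)) = primeHom p (PowerSeries.coeff i f) from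
        RingHom.congr_fun (Subsingleton.elim ((flatGal σ).comp (primeHom p)) (primeHom p)) _]
  obtain ⟨f, g, -, rfl⟩ := exists_div_eq hx
  rw [map_div₀, hpw, hpw]

end FA.FontaineWintenberger
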