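import Fermat.Agent.FontaineWintenberger.Congr

/-!
# The tilt of `ℂ_p` is algebraically closed

Modulo `p` the equations of the terms have finitely many roots and the `p`-th power nearly carries
roots to roots: the inverse limit of the finite sets of roots gives a root.
-/

set_option autoImplicit false
set_option linter.unusedSectionVars false

noncomputable section

open Filter FA.TateSen Finset Polynomial
open scoped Topology

namespace FA.FontaineWintenberger

variable {p : ℕ} [hp : Fact p.Prime]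

local notation "C" => ℂ_[p]

theorem norm_pow_sub_le {a b : C} {θ : ℝ} (ha : ‖a‖ ≤ 1) (hb : ‖b‖ ≤ 1) (hθ : 0 ≤ θ)
    (h : ‖a - b‖ ≤ θ) : ∀ k : ℕ, ‖a ^ k - b ^ k‖ ≤ θ
  | 0 => by simpa using hθ
  | k + 1 => by
    rw [show a ^ (k + 1) - b ^ (k + 1) = a * (a ^ k - b ^ k) + (a - b) * b ^ k by ring]
    refine norm_add_le_of_le ?_ ?_
    · rw [norm_mul]
      exact (mul_le_of_le_one_left (norm_nonneg _) ha).trans (norm_pow_sub_le ha hb hθ h k)
    · rw [norm_mul]
      exact (mul_le_of_le_one_right (norm_nonneg _)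
        (by rw [norm_pow]; exact pow_le_one₀ (norm_nonneg _) hb)).trans h

/-- A sequence compatible up to `θ` is within `θ` of its limit. -/
theorem seq_near_of_compat {u : ℕ → C} {θ : ℝ} (h0 : 0 ≤ θ) (h1 : θ < 1) (hu : ∀ n, ‖u n‖ ≤ 1)
    (h : ∀ n, ‖u (n + 1) ^ p - u n‖ ≤ θ) :
    Compat u ∧ ∀ n, ‖(mkFlat u).seq n - u n‖ ≤ θ := by
  have hc : Compat u := ⟨bdd_of_le_one hu, θ, h0, h1, Eventually.of_forall h⟩
  refine ⟨hc, fun n => ?_⟩
  have hk : ∀ k, ‖u (n + k) ^ p ^ k - u n‖ ≤ θ := by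
    intro k
    induction k with
    | zero => simpa using h0
    | succ k ih =>
      rw [pow_succ', pow_mul, ← add_assoc,
        ← sub_add_sub_cancel _ (u (n + k) ^ p ^ k)]
      refine norm_add_le_of_le (norm_pow_sub_le ?_ (hu _) h0 (h _) _) ih
      rw [norm_pow]
      exact pow_le_one₀ (norm_nonneg _) (hu _)
  have hx : (mkFlat u).seq = limitSeq u :=
    eq_of_near (mkFlat u).2 (limitSeq_pow hc) ((near_mkFlat hc).trans (near_limitSeq hc).symm)
  rw [hx]
  exact le_of_tendsto' ((tendsto_limitSeq hc n).sub_const (u n)).norm hk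

/-- A compatible choice in finite sets. -/
theorem exists_compatible {α : Type*} (R : ℕ → Finset α) (hne : ∀ n, (R n).Nonempty)
    (f : ℕ → α → α) (hf : ∀ n, ∀ a ∈ R (n + 1), f n a ∈ R n) :
    ∃ s : ℕ → α, ∀ n, s n ∈ R n ∧ f n (s (n + 1)) = s n := by
  classical
  let _ : ∀ n, TopologicalSpace {a // a ∈ R n} := fun _ => ⊥
  have : ∀ n, DiscreteTopology {a // a ∈ R n} := fun _ => ⟨rfl⟩
  let F : ∀ n, {a // a ∈ R (n + 1)} → {a // a ∈ R n} := fun n a => ⟨f n a.1, hf n a.1 a.2⟩
  let S : ℕ → Set (∀ n, {a // a ∈ R n}) := fun k => {s | ∀ n < k, F n (s (n + 1)) = s n}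
  have hclosed : ∀ k, IsClosed (S k) := fun k => by
    simp only [S, Set.ofPred_forall]
    exact isClosed_biInter fun n _ =>
      isClosed_eq ((continuous_of_discreteTopology (f := F n)).comp (continuous_apply (n + 1)))
        (continuous_apply n)
  have hnonempty : ∀ k, (S k).Nonempty := by
    have : ∀ k, ∀ a : {a // a ∈ R k}, ∃ s : ∀ n, {a // a ∈ R n}, s ∈ S k ∧ s k = a := by
      intro k
      induction k with
      | zero =>
        intro a
        exact ⟨Function.update (fun n => ⟨(hne n).choose, (hne n).choose_spec⟩) 0 a,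
          fun n hn => absurd hn (Nat.not_lt_zero n), Function.update_self ..⟩
      | succ k ih =>
        intro a
        obtain ⟨s, hs, hsk⟩ := ih (F k a)
        refine ⟨Function.update s (k + 1) a, fun n hn => ?_, Function.update_self ..⟩
        rcases Nat.lt_succ_iff_lt_or_eq.1 hn with h | rfl
        · rw [Function.update_of_ne (by omega), Function.update_of_ne (by omega)]
          exact hs n h
        · rw [Function.update_self, Function.update_of_ne (by omega), hsk]
    exact fun k => (this k ⟨_, (hne k).choose_spec⟩).imp fun s hs => hs.1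
  obtain ⟨s, hs⟩ := IsCompact.nonempty_iInter_of_sequence_nonempty_isCompact_isClosed S
    (fun k x hx n hn => hx n (hn.trans k.lt_succ_self)) hnonempty (hclosed 0).isCompact hclosed
  refine ⟨fun n => (s n).1, fun n => ⟨(s n).2, ?_⟩⟩
  have h : F n (s (n + 1)) = s n := Set.mem_iInter.1 hs (n + 1) n n.lt_succ_self
  exact congrArg Subtype.val h

/-- The value of a monic polynomial given by its lower coefficients. -/
def monicVal {K : Type*} [Field K] (d : ℕ) (c : ℕ → K) (x : K) : K :=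
  x ^ d + ∑ i ∈ range d, c i * x ^ i

theorem norm_monicVal_sub_le {d : ℕ} {c c' : ℕ → C} {a b : C} {θ : ℝ} (hθ : 0 ≤ θ)
    (hc : ∀ i < d, ‖c i - c' i‖ ≤ θ) (hc' : ∀ i < d, ‖c' i‖ ≤ 1) (ha : ‖a‖ ≤ 1) (hb : ‖b‖ ≤ 1)
    (h : ‖a - b‖ ≤ θ) : ‖monicVal d c a - monicVal d c' b‖ ≤ θ := by
  rw [monicVal, monicVal, add_sub_add_comm, ← sum_sub_distrib]
  refine norm_add_le_of_le (norm_pow_sub_le ha hb hθ h d)
    (IsUltrametricDist.norm_sum_le_of_forall_le_of_nonneg hθ fun i hi => ?_)
  rw [mem_range] at hi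
  rw [show c i * a ^ i - c' i * b ^ i = (c i - c' i) * a ^ i + c' i * (a ^ i - b ^ i) by ring]
  refine norm_add_le_of_le ?_ ?_
  · rw [norm_mul]
    exact (mul_le_of_le_one_right (norm_nonneg _)
      (by rw [norm_pow]; exact pow_le_one₀ (norm_nonneg _) ha)).trans (hc i hi)
  · rw [norm_mul]
    exact (mul_le_of_le_one_left (norm_nonneg _) (hc' i hi)).trans (norm_pow_sub_le ha hb hθ h i)

theorem seq_monicVal_modEqP {d : ℕ} {c : ℕ → Flat p} {x : Flat p} (hc : ∀ i < d, ‖c i‖ ≤ 1)
    (hx : ‖x‖ ≤ 1) (n : ℕ) :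
    ModEqP p ((monicVal d c x).seq n) (monicVal d (fun i => (c i).seq n) (x.seq n)) := by
  have hterm : ∀ i ∈ range d, ‖c i * x ^ i‖ ≤ 1 := fun i hi => by
    rw [norm_mul, norm_pow]
    exact mul_le_one₀ (hc i (mem_range.1 hi)) (pow_nonneg (norm_nonneg _) _)
      (pow_le_one₀ (norm_nonneg _) hx)
  refine (seq_add_modEqP (by rw [norm_pow]; exact pow_le_one₀ (norm_nonneg _) hx)
    (IsUltrametricDist.norm_sum_le_of_forall_le_of_nonneg zero_le_one hterm) n).trans ?_
  rw [monicVal, seq_pow_nat]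
  refine (modEqP_refl _).add ((seq_sum_modEqP _ _ hterm n).trans ?_)
  simp only [seq_mul, seq_pow_nat]
  exact modEqP_refl _

/-- The polynomial with the given lower coefficients. -/
def monicPoly {K : Type*} [Field K] (d : ℕ) (c : ℕ → K) : K[X] :=
  X ^ d + ∑ i ∈ range d, Polynomial.C (c i) * X ^ i

theorem eval_monicPoly {K : Type*} [Field K] (d : ℕ) (c : ℕ → K) (x : K) :
    (monicPoly d c).eval x = monicVal d c x := by
  simp [monicPoly, monicVal, eval_finsetSum]

theorem monicPoly_monic {K : Type*} [Field K] (d : ℕ) (c : ℕ → K) :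
    (monicPoly d c).Monic ∧ (monicPoly d c).natDegree = d := by
  have hlt : (∑ i ∈ range d, Polynomial.C (c i) * X ^ i).degree < (d : WithBot ℕ) :=
    (degree_sum_le _ _).trans_lt ((Finset.sup_lt_iff (WithBot.bot_lt_coe d)).2 fun i hi =>
      (degree_C_mul_X_pow_le i (c i)).trans_lt (WithBot.coe_lt_coe.2 (mem_range.1 hi)))
  refine ⟨monic_X_pow_add hlt, natDegree_eq_of_degree_eq_some ?_⟩
  rw [monicPoly, degree_add_eq_left_of_degree_lt (by rwa [degree_X_pow]), degree_X_pow]

theorem norm_root_of_monicVal {K : Type*} [NormedField K] [IsUltrametricDist K] {d : ℕ}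
    {c : ℕ → K} (hc : ∀ i < d, ‖c i‖ ≤ 1) {a : K} (h : monicVal d c a = 0) : ‖a‖ ≤ 1 := by
  by_contra hlt
  have h1 := not_le.1 hlt
  rw [monicVal, add_eq_zero_iff_eq_neg] at h
  rcases Nat.eq_zero_or_pos d with rfl | hd
  · simp at h
  have h2 : ‖a‖ ^ d ≤ ‖a‖ ^ (d - 1) := by
    rw [← norm_pow, h, norm_neg]
    refine IsUltrametricDist.norm_sum_le_of_forall_le_of_nonneg (by positivity) fun i hi => ?_
    rw [mem_range] at hi
    rw [norm_mul, norm_pow]
    exact (mul_le_of_le_one_left (by positivity) (hc i hi)).trans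
      (pow_le_pow_right₀ h1.le (by omega))
  exact absurd h2 (not_le.2 (pow_lt_pow_right₀ h1 (by omega)))

/-- Where a monic polynomial is small some root is near. -/
theorem exists_root_near {K : Type*} [NormedField K] [IsAlgClosed K] {d : ℕ} (hd : 0 < d)
    {c : ℕ → K} {a : K} {B : ℝ} (hB : 0 ≤ B) (h : ‖monicVal d c a‖ ≤ B) :
    ∃ s, monicVal d c s = 0 ∧ ‖a - s‖ ≤ B ^ ((d : ℝ)⁻¹) := by
  obtain ⟨hmon, hdeg⟩ := monicPoly_monic d c
  have hsplit := IsAlgClosed.splits (monicPoly d c)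
  have hcard : (monicPoly d c).roots.card = d := by
    rw [← hsplit.natDegree_eq_card_roots, hdeg]
  by_contra hcon
  push Not at hcon
  have hprod : monicVal d c a = ((monicPoly d c).roots.map (a - ·)).prod := by
    rw [← eval_monicPoly, hsplit.eval_eq_prod_roots, hmon.leadingCoeff, one_mul]
  rw [hprod] at h
  have hθ : 0 ≤ B ^ ((d : ℝ)⁻¹) := Real.rpow_nonneg hB _
  have key : ∀ m : Multiset K, (∀ s ∈ m, B ^ ((d : ℝ)⁻¹) < ‖a - s‖) → 0 < m.card →
      (B ^ ((d : ℝ)⁻¹)) ^ m.card < ‖(m.map (a - ·)).prod‖ := by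
    intro m
    induction m using Multiset.induction_on with
    | empty => simp
    | cons s m ih =>
      intro hm _
      rw [Multiset.card_cons, Multiset.map_cons, Multiset.prod_cons, norm_mul, pow_succ']
      rcases Nat.eq_zero_or_pos m.card with h0 | h0
      · rw [Multiset.card_eq_zero] at h0
        subst h0
        simpa using hm s (Multiset.mem_cons_self _ _)
      · exact mul_lt_mul'' (hm s (Multiset.mem_cons_self _ _))
          (ih (fun t ht => hm t (Multiset.mem_cons_of_mem ht)) h0) hθ (pow_nonneg hθ _)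
  have h2 := key _ (fun s hs => hcon s (by
    rw [← eval_monicPoly]
    exact (mem_roots hmon.ne_zero).1 hs)) (by omega)
  rw [hcard, Real.rpow_inv_natCast_pow hB hd.ne'] at h2
  exact absurd h (not_le.2 h2)

/-- An integral monic equation has a root in the tilt. -/
theorem exists_root_integral {d : ℕ} (hd : 0 < d) (c : ℕ → Flat p) (hc : ∀ i < d, ‖c i‖ ≤ 1) :
    ∃ x : Flat p, monicVal d c x = 0 := by
  classical
  set θ : ℝ := ‖(p : C)‖ ^ ((d : ℝ)⁻¹) with hθd
  have hθ0 : 0 ≤ θ := Real.rpow_nonneg (norm_nonneg _) _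
  have hθ1 : θ < 1 := Real.rpow_lt_one (norm_nonneg _) norm_p_C_lt (by positivity)
  have hpθ : ‖(p : C)‖ ≤ θ := Real.self_le_rpow_of_le_one (norm_nonneg _) norm_p_C_lt.le
    (inv_le_one_of_one_le₀ (by exact_mod_cast hd))
  set cs : ℕ → ℕ → C := fun n i => (c i).seq n
  have hcs : ∀ n, ∀ i < d, ‖cs n i‖ ≤ 1 := fun n i hi => norm_seq_le_one (hc i hi) n
  set R : ℕ → Finset C := fun n => (monicPoly d (cs n)).roots.toFinset
  have hR : ∀ n s, s ∈ R n ↔ monicVal d (cs n) s = 0 := fun n s => by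
    rw [Multiset.mem_toFinset, mem_roots (monicPoly_monic d (cs n)).1.ne_zero, IsRoot,
      eval_monicPoly]
  have hint : ∀ n s, s ∈ R n → ‖s‖ ≤ 1 := fun n s hs =>
    norm_root_of_monicVal (hcs n) ((hR n s).1 hs)
  have hne : ∀ n, (R n).Nonempty := fun n => by
    obtain ⟨s, hs, -⟩ := exists_root_near hd (c := cs n) (a := (0 : C))
      (norm_nonneg (monicVal d (cs n) 0)) le_rfl
    exact ⟨s, (hR n s).2 hs⟩
  have hstep : ∀ n, ∀ r, ∃ s, r ∈ R (n + 1) → s ∈ R n ∧ ‖r ^ p - s‖ ≤ θ := by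
    intro n r
    by_cases hr : r ∈ R (n + 1)
    · have hrp : ‖r ^ p‖ ≤ 1 := by
        rw [norm_pow]; exact pow_le_one₀ (norm_nonneg _) (hint _ r hr)
      have hval : ModEqP p (monicVal d (cs (n + 1)) r ^ p) (monicVal d (cs n) (r ^ p)) := by
        have hb1 : ‖r ^ d‖ ≤ 1 := by
          rw [norm_pow]; exact pow_le_one₀ (norm_nonneg _) (hint _ r hr)
        have hb2 : ∀ i ∈ range d, ‖cs (n + 1) i * r ^ i‖ ≤ 1 := fun i hi => by
          rw [norm_mul, norm_pow]
          exact mul_le_one₀ (hcs _ i (mem_range.1 hi)) (by positivity)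
            (pow_le_one₀ (norm_nonneg _) (hint _ r hr))
        rw [monicVal]
        set S := ∑ i ∈ range d, cs (n + 1) i * r ^ i
        have hS : ‖S‖ ≤ 1 :=
          IsUltrametricDist.norm_sum_le_of_forall_le_of_nonneg zero_le_one hb2
        have h1 := norm_add_pow_sub_le (p := p) hb1 hS
        have h2 := norm_sum_pow_sub_le (p := p) zero_le_one hb2
        rw [one_pow, mul_one, sub_sub] at h1
        rw [one_pow, mul_one] at h2
        refine ModEqP.trans h1 ?_
        rw [monicVal]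
        refine ModEqP.add (by rw [pow_right_comm]; exact modEqP_refl _) (ModEqP.trans h2 ?_)
        have e : ∀ i, (cs (n + 1) i * r ^ i) ^ p = cs n i * (r ^ p) ^ i := fun i => by
          rw [mul_pow, pow_right_comm, seq_pow]
        simp only [e]
        exact modEqP_refl _
      rw [(hR _ r).1 hr, zero_pow hp.out.ne_zero, ModEqP, zero_sub, norm_neg] at hval
      obtain ⟨s, hs, hsn⟩ := exists_root_near hd (norm_nonneg _) hval
      exact ⟨s, fun _ => ⟨(hR n s).2 hs, hsn⟩⟩
    · exact ⟨0, fun h => absurd h hr⟩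
  choose f hf using hstep
  obtain ⟨s, hs⟩ := exists_compatible R hne f fun n r hr => (hf n r hr).1
  obtain ⟨hcomp, hnear⟩ := seq_near_of_compat (u := s) hθ0 hθ1 (fun n => hint n _ (hs n).1)
    fun n => by
      conv_lhs => rw [← (hs n).2]
      exact (hf n _ (hs (n + 1)).1).2
  set x := mkFlat s
  have hx : ‖x‖ ≤ 1 := by
    have h0 := hnear 0
    rw [norm_flat_def, show x.seq 0 = (x.seq 0 - s 0) + s 0 by ring]
    exact norm_add_le_of_le (h0.trans hθ1.le) (hint 0 _ (hs 0).1)
  refine ⟨x, norm_le_zero_iff.1 ?_⟩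
  have hlim : Tendsto (fun n => θ ^ p ^ n) atTop (𝓝 0) :=
    (tendsto_pow_atTop_nhds_zero_of_lt_one hθ0 hθ1).comp
      (tendsto_pow_atTop_atTop_of_one_lt (r := p) hp.out.one_lt)
  refine ge_of_tendsto' hlim fun n => norm_le_of_seq_le ?_
  have h1 : ‖monicVal d (cs n) (x.seq n)‖ ≤ θ := by
    have h2 := norm_monicVal_sub_le (c := cs n) (c' := cs n) hθ0
      (fun i _ => by rw [sub_self, norm_zero]; exact hθ0) (hcs n) (norm_seq_le_one hx n)
      (hint n _ (hs n).1) (hnear n)
    rwa [(hR n _).1 (hs n).1, sub_zero] at h2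
  rw [show (monicVal d c x).seq n = ((monicVal d c x).seq n - monicVal d (cs n) (x.seq n)) +
    monicVal d (cs n) (x.seq n) by ring]
  exact norm_add_le_of_le (le_trans (seq_monicVal_modEqP hc hx n) hpθ) h1

theorem exists_norm_le {B : ℝ} (hB : 0 < B) : ∃ c : Flat p, c ≠ 0 ∧ ‖c‖ ≤ B := by
  obtain ⟨k, hk⟩ := exists_pow_lt_of_lt_one hB (norm_p_C_lt (p := p))
  obtain ⟨c, hc⟩ := exists_seq_zero_eq ((p : C) ^ k)
  refine ⟨c, fun h0 => ?_, ?_⟩
  · rw [h0, seq_zero] at hc
    exact pow_ne_zero k (Nat.cast_ne_zero.2 hp.out.ne_zero) hc.symm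
  · rw [norm_flat_def, hc, norm_pow]; exact hk.le

/-- **The tilt is algebraically closed.** -/
instance : IsAlgClosed (Flat p) := by
  refine IsAlgClosed.of_exists_root _ fun P hP hirr => ?_
  set d := P.natDegree
  have hd : 0 < d := hirr.natDegree_pos
  set M := 1 + ∑ i ∈ range d, ‖P.coeff i‖ with hMdef
  have hM : 1 ≤ M := le_add_of_nonneg_right (sum_nonneg fun i _ => norm_nonneg (P.coeff i))
  obtain ⟨c, hc0, hc⟩ := exists_norm_le (p := p) (B := 1 / M) (by positivity)
  obtain ⟨x, hx⟩ := exists_root_integral hd (fun i => P.coeff i * c ^ (d - i)) fun i hi => by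
    rw [norm_mul, norm_pow]
    have hcM : ‖c‖ ^ (d - i) ≤ 1 / M :=
      (pow_le_of_le_one (norm_nonneg c) (hc.trans ((div_le_one (by linarith)).2 hM))
        (by omega)).trans hc
    have hcoef : ‖P.coeff i‖ ≤ M := by
      rw [hMdef]
      have := single_le_sum (s := range d) (fun j _ => norm_nonneg (P.coeff j)) (mem_range.2 hi)
      linarith
    exact (mul_le_mul hcoef hcM (by positivity) (by linarith)).trans_eq (by field_simp)
  refine ⟨x / c, ?_⟩
  change P.eval (x / c) = 0
  rw [eval_eq_sum_range]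
  have e : c ^ d * ∑ i ∈ range (d + 1), P.coeff i * (x / c) ^ i =
      monicVal d (fun i => P.coeff i * c ^ (d - i)) x := by
    rw [monicVal, sum_range_succ, hP.coeff_natDegree, one_mul, mul_add, mul_sum, add_comm,
      div_pow, mul_div_cancel₀ _ (pow_ne_zero _ hc0)]
    congr 1
    refine sum_congr rfl fun i hi => ?_
    rw [mem_range] at hi
    rw [div_pow, show c ^ d = c ^ (d - i) * c ^ i by
      rw [← pow_add, Nat.sub_add_cancel hi.le]]
    field_simp
  rw [hx] at e
  exact (mul_eq_zero.1 e).resolve_left (pow_ne_zero _ hc0)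

end FA.FontaineWintenberger
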