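import Fermat.Agent.FontaineWintenberger.Sequences

/-!
# The tilt of `ℂ_p`

The sequences in `ℂ_p` compatible for the `p`-th power form a field of characteristic `p`: the
product is the pointwise one, the sum is the compatible sequence near the pointwise sum. The
absolute value of a sequence is that of its first term.
-/

set_option autoImplicit false
set_option linter.unusedSectionVars false

noncomputable section

open Filter FA.TateSen
open scoped Topology

namespace FA.FontaineWintenberger

variable (p : ℕ) [hp : Fact p.Prime]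

local notation "C" => ℂ_[p]

/-- **The tilt of `ℂ_p`.** -/
def Flat : Type := {f : ℕ → ℂ_[p] // ∀ n, f (n + 1) ^ p = f n}

variable {p}

/-- The terms of an element of the tilt. -/
def Flat.seq (x : Flat p) : ℕ → C := x.1

theorem seq_pow (x : Flat p) (n : ℕ) : x.seq (n + 1) ^ p = x.seq n := x.2 n

theorem seq_injective {x y : Flat p} (h : x.seq = y.seq) : x = y := Subtype.ext h

theorem seq_pow_pow (x : Flat p) (n k : ℕ) : x.seq (n + k) ^ p ^ k = x.seq n :=
  apply_eq_pow x.2 n k

theorem seq_zero_pow (x : Flat p) (n : ℕ) : x.seq n ^ p ^ n = x.seq 0 := by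
  simpa using seq_pow_pow x 0 n

theorem bdd_seq (x : Flat p) : Bdd x.seq := bdd_of_exact x.2

theorem compat_seq (x : Flat p) : Compat x.seq :=
  ⟨bdd_seq x, by simp only [seq_pow]; exact Near.refl _⟩

theorem flat_eq_of_near {x y : Flat p} (h : Near x.seq y.seq) : x = y :=
  seq_injective (eq_of_near x.2 y.2 h)

open scoped Classical in
/-- The element near a compatible sequence. -/
def mkFlat (u : ℕ → C) : Flat p :=
  if h : Compat u then ⟨limitSeq u, limitSeq_pow h⟩
  else ⟨fun _ => 0, fun _ => zero_pow hp.out.ne_zero⟩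

theorem near_mkFlat {u : ℕ → C} (h : Compat u) : Near (mkFlat u).seq u := by
  rw [mkFlat, dif_pos h]; exact near_limitSeq h

theorem mkFlat_eq {u : ℕ → C} (h : Compat u) {x : Flat p} (hx : Near x.seq u) : mkFlat u = x :=
  flat_eq_of_near ((near_mkFlat h).trans hx.symm)

theorem near_of_bound {u v : ℕ → C} {B : ℝ} (hB : 0 < B)
    (h : ∀ᶠ n in atTop, ‖u n - v n‖ ≤ ‖(p : C)‖ * root p B n) : Near u v := by
  have hlim : Tendsto (fun n => ‖(p : C)‖ * root p B n) atTop (𝓝 ‖(p : C)‖) := by
    simpa using (tendsto_root (p := p) hB).const_mul ‖(p : C)‖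
  have hlt := norm_p_C_lt (p := p)
  have h0 := norm_nonneg (p : C)
  refine ⟨(‖(p : C)‖ + 1) / 2, by linarith, by linarith, ?_⟩
  filter_upwards [h, hlim.eventually (eventually_le_nhds
    (by linarith : ‖(p : C)‖ < (‖(p : C)‖ + 1) / 2))] with n h1 h2
  exact h1.trans h2

theorem norm_neg_pow_sub (v : C) : ‖(-v) ^ p - -(v ^ p)‖ ≤ ‖(p : C)‖ * ‖v‖ ^ p := by
  have h := norm_add_pow_sub_le (p := p) (y := v) (z := -v) (A := ‖v‖) le_rfl (norm_neg v).le
  rw [add_neg_cancel, zero_pow hp.out.ne_zero, zero_sub, sub_eq_add_neg,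
    ← neg_add, norm_neg] at h
  rwa [sub_neg_eq_add, add_comm]

theorem Compat.add {u v : ℕ → C} (hu : Compat u) (hv : Compat v) :
    Compat fun n => u n + v n := by
  refine ⟨hu.1.add hv.1, Near.trans ?_ (hu.2.add hv.2)⟩
  obtain ⟨A, hA, hAu⟩ := hu.1
  obtain ⟨B, hB, hBv⟩ := hv.1
  obtain ⟨N, hN⟩ := eventually_atTop.1 (hAu.and hBv)
  set M := max A B
  have hM : 1 ≤ M := le_max_of_le_left hA
  refine near_of_bound (B := M) (by linarith) (eventually_atTop.2 ⟨N, fun n hn => ?_⟩)
  obtain ⟨h1, h2⟩ := hN (n + 1) (by omega)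
  rw [← sub_sub]
  refine (norm_add_pow_sub_le (h1.trans (root_mono (by linarith) (le_max_left A B) _))
    (h2.trans (root_mono (by linarith) (le_max_right A B) _))).trans_eq ?_
  have h3 := root_pow (p := p) (by linarith : (0 : ℝ) ≤ M) n 1
  rw [pow_one] at h3
  rw [h3]

theorem Compat.neg {u : ℕ → C} (hu : Compat u) : Compat fun n => -u n := by
  refine ⟨hu.1.neg, Near.trans ?_ hu.2.neg⟩
  obtain ⟨A, hA, hAu⟩ := hu.1
  obtain ⟨N, hN⟩ := eventually_atTop.1 hAu
  refine near_of_bound (B := A) (by linarith) (eventually_atTop.2 ⟨N, fun n hn => ?_⟩)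
  refine (norm_neg_pow_sub _).trans (mul_le_mul_of_nonneg_left ?_ (norm_nonneg _))
  have h3 := root_pow (p := p) (by linarith : (0 : ℝ) ≤ A) n 1
  rw [pow_one] at h3
  exact (pow_le_pow_left₀ (norm_nonneg _) (hN (n + 1) (by omega)) p).trans_eq h3

instance : Zero (Flat p) := ⟨⟨fun _ => 0, fun _ => zero_pow hp.out.ne_zero⟩⟩
instance : One (Flat p) := ⟨⟨fun _ => 1, fun _ => one_pow _⟩⟩
instance : Mul (Flat p) := ⟨fun x y => ⟨fun n => x.seq n * y.seq n, fun n => by
  rw [mul_pow, seq_pow, seq_pow]⟩⟩
instance : Inv (Flat p) := ⟨fun x => ⟨fun n => (x.seq n)⁻¹, fun n => by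
  rw [inv_pow, seq_pow]⟩⟩
instance : Add (Flat p) := ⟨fun x y => mkFlat fun n => x.seq n + y.seq n⟩
instance : Neg (Flat p) := ⟨fun x => mkFlat fun n => -x.seq n⟩

theorem seq_zero (n : ℕ) : (0 : Flat p).seq n = 0 := rfl
theorem seq_one (n : ℕ) : (1 : Flat p).seq n = 1 := rfl
theorem seq_mul (x y : Flat p) (n : ℕ) : (x * y).seq n = x.seq n * y.seq n := rfl
theorem seq_inv (x : Flat p) (n : ℕ) : x⁻¹.seq n = (x.seq n)⁻¹ := rfl

theorem near_add (x y : Flat p) : Near (x + y).seq fun n => x.seq n + y.seq n :=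
  near_mkFlat ((compat_seq x).add (compat_seq y))

theorem near_neg (x : Flat p) : Near (-x).seq fun n => -x.seq n :=
  near_mkFlat (compat_seq x).neg

theorem seq_eq_zero {x : Flat p} {n : ℕ} (h : x.seq n = 0) : x = 0 := by
  refine seq_injective (funext fun m => ?_)
  rw [seq_zero]
  have h0 : x.seq 0 = 0 := by
    rw [← seq_zero_pow x n, h, zero_pow (pow_ne_zero _ hp.out.ne_zero)]
  have h2 := seq_zero_pow x m
  rw [h0] at h2
  exact eq_zero_of_pow_eq_zero h2

theorem Flat.add_assoc' (x y z : Flat p) : x + y + z = x + (y + z) := by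
  refine flat_eq_of_near ((((near_add _ z).trans ((near_add x y).add (Near.refl z.seq))).trans
    ?_).trans ((near_add x _).trans ((Near.refl x.seq).add (near_add y z))).symm)
  simp only [add_assoc]
  exact Near.refl _

theorem Flat.zero_add' (x : Flat p) : 0 + x = x := by
  refine flat_eq_of_near ((near_add 0 x).trans ?_)
  simp only [seq_zero, zero_add]
  exact Near.refl _

theorem Flat.add_comm' (x y : Flat p) : x + y = y + x := by
  refine flat_eq_of_near ((near_add x y).trans ?_)
  simp only [add_comm (x.seq _)]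
  exact (near_add y x).symm

theorem Flat.neg_add' (x : Flat p) : -x + x = 0 := by
  refine flat_eq_of_near (((near_add _ x).trans ((near_neg x).add (Near.refl x.seq))).trans ?_)
  simp only [neg_add_cancel]
  exact Near.refl _

theorem Flat.left_distrib' (x y z : Flat p) : x * (y + z) = x * y + x * z := by
  refine flat_eq_of_near ((Near.mul_left (bdd_seq x) (near_add y z)).trans ?_)
  simp only [mul_add]
  exact (near_add (x * y) (x * z)).symm

instance : CommRing (Flat p) where
  add_assoc := Flat.add_assoc'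
  zero_add := Flat.zero_add'
  add_zero x := (Flat.add_comm' x 0).trans (Flat.zero_add' x)
  nsmul := nsmulRec
  zsmul := zsmulRec
  neg_add_cancel := Flat.neg_add'
  add_comm := Flat.add_comm'
  left_distrib := Flat.left_distrib'
  right_distrib x y z := by
    have hc : ∀ a b : Flat p, a * b = b * a := fun a b =>
      seq_injective (funext fun n => by rw [seq_mul, seq_mul, mul_comm])
    rw [hc, Flat.left_distrib', hc z, hc z]
  zero_mul x := seq_injective (funext fun n => by rw [seq_mul, seq_zero, zero_mul])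
  mul_zero x := seq_injective (funext fun n => by rw [seq_mul, seq_zero, mul_zero])
  mul_assoc x y z := seq_injective (funext fun n => by simp only [seq_mul, mul_assoc])
  one_mul x := seq_injective (funext fun n => by rw [seq_mul, seq_one, one_mul])
  mul_one x := seq_injective (funext fun n => by rw [seq_mul, seq_one, mul_one])
  mul_comm x y := seq_injective (funext fun n => by rw [seq_mul, seq_mul, mul_comm])

instance : Field (Flat p) where
  exists_pair_ne := ⟨0, 1, fun h => zero_ne_one (α := C) (by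
    simpa [seq_zero, seq_one] using congrArg (fun x : Flat p => x.seq 0) h)⟩
  mul_inv_cancel x hx := seq_injective (funext fun n => by
    rw [seq_mul, seq_inv, seq_one, mul_inv_cancel₀ fun h => hx (seq_eq_zero h)])
  inv_zero := seq_injective (funext fun n => by rw [seq_inv, seq_zero, inv_zero])
  nnqsmul := _
  qsmul := _

theorem seq_pow_nat (x : Flat p) (k n : ℕ) : (x ^ k).seq n = x.seq n ^ k := by
  induction k with
  | zero => rw [pow_zero, pow_zero, seq_one]
  | succ k ih => rw [pow_succ, pow_succ, seq_mul, ih]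

theorem near_sub (x y : Flat p) : Near (x - y).seq fun n => x.seq n - y.seq n := by
  simp only [sub_eq_add_neg]
  exact (near_add x (-y)).trans ((Near.refl x.seq).add (near_neg y))

theorem near_natCast : ∀ m : ℕ, Near (m : Flat p).seq fun _ => (m : C)
  | 0 => by simp only [Nat.cast_zero]; exact Near.refl _
  | m + 1 => by
    simp only [Nat.cast_succ]
    exact (near_add (m : Flat p) 1).trans ((near_natCast m).add (Near.refl _))

theorem natCast_p : ((p : ℕ) : Flat p) = 0 := by
  refine flat_eq_of_near ((near_natCast p).trans ⟨‖(p : C)‖, norm_nonneg _, norm_p_C_lt,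
    Eventually.of_forall fun n => ?_⟩)
  rw [seq_zero, sub_zero]

instance : CharP (Flat p) p := (CharP.charP_iff_prime_eq_zero hp.out).2 natCast_p

/-- The absolute value. -/
instance instNormFlat : Norm (Flat p) := ⟨fun x => ‖x.seq 0‖⟩

theorem norm_flat_def (x : Flat p) : ‖x‖ = ‖x.seq 0‖ := rfl

theorem norm_seq_pow (x : Flat p) (n : ℕ) : ‖x.seq n‖ ^ p ^ n = ‖x‖ := by
  rw [norm_flat_def, ← norm_pow, seq_zero_pow]

theorem norm_seq_eq_root (x : Flat p) (n : ℕ) : ‖x.seq n‖ = root p ‖x‖ n := by
  rw [root, ← norm_seq_pow x n, ← Real.rpow_natCast, ← Real.rpow_mul (norm_nonneg _)]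
  push_cast
  rw [mul_inv_cancel₀ (pow_ne_zero _ (Nat.cast_ne_zero.2 hp.out.ne_zero)), Real.rpow_one]

theorem norm_add_le_max' (x y : Flat p) : ‖x + y‖ ≤ max ‖x‖ ‖y‖ := by
  rcases eq_or_lt_of_le ((norm_nonneg (x.seq 0)).trans (le_max_left ‖x.seq 0‖ ‖y.seq 0‖))
    with h0 | h0
  · have hx : x = 0 := seq_eq_zero (norm_le_zero_iff.1 (h0 ▸ le_max_left _ _ : ‖x.seq 0‖ ≤ 0))
    have hy : y = 0 := seq_eq_zero (norm_le_zero_iff.1 (h0 ▸ le_max_right _ _ : ‖y.seq 0‖ ≤ 0))
    rw [hx, hy, add_zero, max_self]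
  set M := max ‖x‖ ‖y‖ with hM
  have hM0 : 0 < M := h0
  obtain ⟨θ, -, hθ1, hθ⟩ := near_add x y
  obtain ⟨n, hn, hroot⟩ := (hθ.and ((tendsto_root (p := p) hM0).eventually
    (eventually_ge_nhds hθ1))).exists
  have h1 : ‖(x + y).seq n‖ ≤ root p M n := by
    have e : (x + y).seq n = ((x + y).seq n - (x.seq n + y.seq n)) + (x.seq n + y.seq n) := by ring
    rw [e]
    refine norm_add_le_of_le (hn.trans hroot) (norm_add_le_of_le ?_ ?_)
    · rw [norm_seq_eq_root]; exact root_mono (norm_nonneg (x.seq 0)) (le_max_left ‖x‖ ‖y‖) n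
    · rw [norm_seq_eq_root]; exact root_mono (norm_nonneg (y.seq 0)) (le_max_right ‖x‖ ‖y‖) n
  rw [← norm_seq_pow (x + y) n]
  refine (pow_le_pow_left₀ (norm_nonneg _) h1 _).trans_eq ?_
  have h2 := root_pow (p := p) hM0.le 0 n
  rw [zero_add] at h2
  rw [h2, root, pow_zero, inv_one, Real.rpow_one]

theorem norm_neg' (x : Flat p) : ‖-x‖ = ‖x‖ := by
  have h : (-1 : Flat p) * -1 = 1 := by ring
  have h1 : ‖(-1 : Flat p)‖ = 1 := by
    have h2 := congrArg norm h
    rw [norm_flat_def, norm_flat_def, seq_mul, seq_one, norm_mul, norm_one] at h2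
    rw [norm_flat_def]
    nlinarith [norm_nonneg ((-1 : Flat p).seq 0)]
  rw [norm_flat_def] at h1
  rw [neg_eq_neg_one_mul, norm_flat_def, seq_mul, norm_mul, h1, one_mul, norm_flat_def]

/-- The absolute value as an additive norm. -/
def flatNorm : AddGroupNorm (Flat p) where
  toFun x := ‖x‖
  map_zero' := by rw [norm_flat_def, seq_zero, norm_zero]
  add_le' x y := (norm_add_le_max' x y).trans
    (max_le_add_of_nonneg (norm_nonneg (x.seq 0)) (norm_nonneg (y.seq 0)))
  neg' := norm_neg'
  eq_zero_of_map_eq_zero' x h := seq_eq_zero (norm_eq_zero.1 h)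

instance : NormedField (Flat p) :=
  { (flatNorm (p := p)).toNormedAddCommGroup, (inferInstance : Field (Flat p)) with
    toNorm := instNormFlat
    norm_mul := fun x y => by
      change ‖(x * y).seq 0‖ = ‖x.seq 0‖ * ‖y.seq 0‖
      rw [seq_mul, norm_mul] }

instance : IsUltrametricDist (Flat p) :=
  IsUltrametricDist.isUltrametricDist_of_forall_norm_add_le_max_norm norm_add_le_max'

/-- The `p`-th root: shift the sequence. -/
def pthRoot' (x : Flat p) : Flat p := ⟨fun n => x.seq (n + 1), fun n => seq_pow x (n + 1)⟩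

theorem pthRoot'_seq (x : Flat p) (n : ℕ) : (pthRoot' x).seq n = x.seq (n + 1) := rfl

theorem pthRoot'_pow (x : Flat p) : pthRoot' x ^ p = x :=
  seq_injective (funext fun n => by rw [seq_pow_nat, pthRoot'_seq, seq_pow])

instance : PerfectRing (Flat p) p :=
  PerfectRing.ofSurjective (Flat p) p fun x => ⟨pthRoot' x, pthRoot'_pow x⟩

theorem pthRoot'_iter_seq (x : Flat p) (k n : ℕ) :
    (pthRoot'^[k] x).seq n = x.seq (n + k) := by
  induction k generalizing n with
  | zero => rfl
  | succ k ih =>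
    rw [Function.iterate_succ_apply', pthRoot'_seq, ih, add_right_comm, add_assoc]

theorem pthRoot'_iter_pow (x : Flat p) (k : ℕ) : (pthRoot'^[k] x) ^ p ^ k = x :=
  seq_injective (funext fun n => by rw [seq_pow_nat, pthRoot'_iter_seq, seq_pow_pow])

end FA.FontaineWintenberger
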