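import Fermat.Agent.FontaineWintenberger.AlgClosed

/-!
# The tilt is complete
-/

set_option autoImplicit false
set_option linter.unusedSectionVars false

noncomputable section

open Filter FA.TateSen
open scoped Topology

namespace FA.FontaineWintenberger

variable {p : ℕ} [hp : Fact p.Prime]

local notation "C" => ℂ_[p]

theorem exists_tendsto_integral {v : ℕ → Flat p} (hv : ∀ i, ‖v i‖ ≤ 1) (hc : CauchySeq v) :
    ∃ x, Tendsto v atTop (𝓝 x) := by
  have hK : ∀ n, ∃ K, ∀ i ≥ K, ∀ j ≥ K, ‖v i - v j‖ ≤ ‖(p : C)‖ ^ p ^ n := by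
    intro n
    obtain ⟨K, hK⟩ := Metric.cauchySeq_iff.1 hc _
      (pow_pos (norm_pos_iff.2 (Nat.cast_ne_zero.2 hp.out.ne_zero : (p : C) ≠ 0)) (p ^ n))
    exact ⟨K, fun i hi j hj => by rw [← dist_eq_norm]; exact (hK i hi j hj).le⟩
  choose K hK using hK
  set w : ℕ → C := fun n => (v (K n)).seq n with hw
  have hstep : ∀ n, ∀ i ≥ K n, ModEqP p ((v i).seq n) (w n) := fun n i hi =>
    (norm_sub_le_iff (hv i) (hv _) n).1 (hK n i hi _ le_rfl)
  have hw1 : ∀ n, ‖w n‖ ≤ 1 := fun n => norm_seq_le_one (hv _) n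
  have hcomp : ∀ n, ModEqP p (w (n + 1) ^ p) (w n) := fun n => by
    have h1 := (hstep (n + 1) _ (le_max_right (K n) _)).symm.pow
      (norm_seq_le_one (hv (max (K n) (K (n + 1)))) _) p
    rw [seq_pow (v (max (K n) (K (n + 1))))] at h1
    exact h1.trans (hstep n _ (le_max_left _ _))
  have hc' : Compat w := ⟨bdd_of_le_one hw1, ‖(p : C)‖, norm_nonneg _, norm_p_C_lt,
    Eventually.of_forall hcomp⟩
  have hxw : ∀ n, ModEqP p ((mkFlat w).seq n) (w n) :=
    seq_modEqP_of_near hw1 hcomp (near_mkFlat hc')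
  have hx1 : ‖mkFlat w‖ ≤ 1 := by
    rw [norm_flat_def]
    exact (hxw 0).norm_le_one (hw1 0)
  refine ⟨mkFlat w, Metric.tendsto_atTop.2 fun ε hε => ?_⟩
  obtain ⟨n, hn⟩ := ((tendsto_p_pow_pow (p := p)).eventually (gt_mem_nhds hε)).exists
  refine ⟨K n, fun i hi => ?_⟩
  rw [dist_eq_norm]
  exact ((norm_sub_le_iff (hv i) hx1 n).2 ((hstep n i hi).trans (hxw n).symm)).trans_lt hn

/-- **The tilt is complete.** -/
instance : CompleteSpace (Flat p) := by
  refine Metric.complete_of_cauchySeq_tendsto fun u hu => ?_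
  obtain ⟨B, hBu⟩ := isBounded_iff_forall_norm_le.1 hu.isBounded_range
  obtain ⟨c, hc0, hc⟩ := exists_norm_le (p := p) (B := 1 / (|B| + 1)) (by positivity)
  have hv : ∀ i, ‖c * u i‖ ≤ 1 := fun i => by
    rw [norm_mul]
    refine (mul_le_mul hc ((hBu _ ⟨i, rfl⟩).trans ((le_abs_self B).trans (le_add_of_nonneg_right
      zero_le_one))) (norm_nonneg _) (by positivity)).trans ?_
    rw [one_div, inv_mul_cancel₀ (by positivity)]
  have huc : CauchySeq fun i => c * u i := by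
    rw [Metric.cauchySeq_iff] at hu ⊢
    intro ε hε
    obtain ⟨N, hN⟩ := hu (ε / ‖c‖) (div_pos hε (norm_pos_iff.2 hc0))
    refine ⟨N, fun i hi j hj => ?_⟩
    have h := hN i hi j hj
    rw [dist_eq_norm] at h ⊢
    rw [← mul_sub, norm_mul, mul_comm]
    exact (lt_div_iff₀ (norm_pos_iff.2 hc0)).1 h
  obtain ⟨x, hx⟩ := exists_tendsto_integral hv huc
  exact ⟨c⁻¹ * x, (hx.const_mul c⁻¹).congr fun i => inv_mul_cancel_left₀ hc0 _⟩

end FA.FontaineWintenberger
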