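import Fermat.Agent.FontaineWintenberger.Basic

/-!
# The tilt modulo `p`

On the integral elements the terms are compatible with the ring operations modulo `p`, and two
elements are at distance at most `|p| ^ (p ^ n)` when their terms of index `n` agree modulo `p`.
-/

set_option autoImplicit false
set_option linter.unusedSectionVars false

noncomputable section

open Filter FA.TateSen Polynomial
open scoped Topology

namespace FA.FontaineWintenberger

variable {p : ℕ} [hp : Fact p.Prime]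

local notation "C" => ℂ_[p]

variable (p) in
/-- Congruence modulo `p` in `ℂ_p`. -/
def ModEqP (a b : C) : Prop := ‖a - b‖ ≤ ‖(p : C)‖

theorem modEqP_refl (a : C) : ModEqP p a a := by
  rw [ModEqP, sub_self, norm_zero]; exact norm_nonneg _

theorem ModEqP.symm {a b : C} (h : ModEqP p a b) : ModEqP p b a := by
  rwa [ModEqP, norm_sub_rev]

theorem ModEqP.trans {a b c : C} (h : ModEqP p a b) (h' : ModEqP p b c) : ModEqP p a c := by
  rw [ModEqP, show a - c = (a - b) + (b - c) by ring]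
  exact norm_add_le_of_le h h'

theorem ModEqP.add {a b a' b' : C} (h : ModEqP p a b) (h' : ModEqP p a' b') :
    ModEqP p (a + a') (b + b') := by
  rw [ModEqP, add_sub_add_comm]
  exact norm_add_le_of_le h h'

theorem ModEqP.sub {a b a' b' : C} (h : ModEqP p a b) (h' : ModEqP p a' b') :
    ModEqP p (a - a') (b - b') := by
  rw [ModEqP, show a - a' - (b - b') = (a - b) - (a' - b') by ring]
  exact norm_sub_le_of_le h h'

theorem ModEqP.mul_left {a b c : C} (hc : ‖c‖ ≤ 1) (h : ModEqP p a b) :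
    ModEqP p (c * a) (c * b) := by
  rw [ModEqP, ← mul_sub, norm_mul]
  exact (mul_le_of_le_one_left (norm_nonneg _) hc).trans h

theorem ModEqP.mul {a b a' b' : C} (ha : ‖a‖ ≤ 1) (hb' : ‖b'‖ ≤ 1) (h : ModEqP p a b)
    (h' : ModEqP p a' b') : ModEqP p (a * a') (b * b') := by
  refine (h'.mul_left ha).trans ?_
  rw [mul_comm a, mul_comm b]
  exact h.mul_left hb'

theorem ModEqP.norm_le_one {a b : C} (h : ModEqP p a b) (hb : ‖b‖ ≤ 1) : ‖a‖ ≤ 1 := by
  rw [show a = (a - b) + b by ring]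
  exact norm_add_le_of_le (le_trans h norm_p_C_lt.le) hb

theorem ModEqP.pow {a b : C} (hb : ‖b‖ ≤ 1) (h : ModEqP p a b) :
    ∀ k : ℕ, ModEqP p (a ^ k) (b ^ k)
  | 0 => by simpa using modEqP_refl (1 : C)
  | k + 1 => by
    rw [pow_succ, pow_succ]
    refine (h.pow hb k).mul ?_ hb h
    rw [norm_pow]
    exact pow_le_one₀ (norm_nonneg _) (h.norm_le_one hb)

theorem norm_root_le_one {B : ℝ} (h0 : 0 ≤ B) (h : B ≤ 1) (n : ℕ) : root p B n ≤ 1 :=
  Real.rpow_le_one h0 h (by positivity)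

theorem norm_seq_le_one {x : Flat p} (hx : ‖x‖ ≤ 1) (n : ℕ) : ‖x.seq n‖ ≤ 1 := by
  rw [norm_seq_eq_root]
  exact norm_root_le_one (norm_nonneg (x.seq 0)) hx n

/-- A compatible sequence modulo `p` is congruent to its limit. -/
theorem seq_modEqP_of_near {x : Flat p} {u : ℕ → C} (hu : ∀ n, ‖u n‖ ≤ 1)
    (h : ∀ n, ModEqP p (u (n + 1) ^ p) (u n)) (hx : Near x.seq u) (n : ℕ) :
    ModEqP p (x.seq n) (u n) := by
  have hc : Compat u := ⟨bdd_of_le_one hu, ‖(p : C)‖, norm_nonneg _, norm_p_C_lt,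
    Eventually.of_forall h⟩
  have hk : ∀ k, ModEqP p (u (n + k) ^ p ^ k) (u n) := by
    intro k
    induction k with
    | zero => simpa using modEqP_refl (u n)
    | succ k ih =>
      rw [pow_succ', pow_mul, ← add_assoc]
      exact ((h (n + k)).pow (hu _) _).trans ih
  have hx' : x.seq = limitSeq u :=
    eq_of_near x.2 (limitSeq_pow hc) (hx.trans (near_limitSeq hc).symm)
  rw [hx']
  exact le_of_tendsto' ((tendsto_limitSeq hc n).sub_const (u n)).norm hk

theorem seq_add_modEqP {x y : Flat p} (hx : ‖x‖ ≤ 1) (hy : ‖y‖ ≤ 1) (n : ℕ) :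
    ModEqP p ((x + y).seq n) (x.seq n + y.seq n) := by
  refine seq_modEqP_of_near (fun m => norm_add_le_of_le (norm_seq_le_one hx m)
    (norm_seq_le_one hy m)) (fun m => ?_) (near_add x y) n
  rw [ModEqP, ← sub_sub]
  have h := norm_add_pow_sub_le (p := p) (norm_seq_le_one hx (m + 1)) (norm_seq_le_one hy (m + 1))
  rwa [seq_pow, seq_pow, one_pow, mul_one] at h

theorem seq_neg_modEqP {x : Flat p} (hx : ‖x‖ ≤ 1) (n : ℕ) :
    ModEqP p ((-x).seq n) (-x.seq n) := by
  refine seq_modEqP_of_near (fun m => by rw [norm_neg]; exact norm_seq_le_one hx m)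
    (fun m => ?_) (near_neg x) n
  rw [ModEqP]
  have h := (norm_neg_pow_sub (x.seq (m + 1))).trans (mul_le_of_le_one_right (norm_nonneg _)
    (pow_le_one₀ (norm_nonneg _) (norm_seq_le_one hx (m + 1))))
  rwa [seq_pow] at h

theorem seq_sub_modEqP {x y : Flat p} (hx : ‖x‖ ≤ 1) (hy : ‖y‖ ≤ 1) (n : ℕ) :
    ModEqP p ((x - y).seq n) (x.seq n - y.seq n) := by
  rw [sub_eq_add_neg, sub_eq_add_neg]
  exact (seq_add_modEqP hx (by rwa [norm_neg]) n).trans
    ((modEqP_refl _).add (seq_neg_modEqP hy n))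

theorem seq_sum_modEqP {ι : Type*} (s : Finset ι) (f : ι → Flat p) (h : ∀ i ∈ s, ‖f i‖ ≤ 1)
    (n : ℕ) : ModEqP p ((∑ i ∈ s, f i).seq n) (∑ i ∈ s, (f i).seq n) := by
  classical
  induction s using Finset.induction_on with
  | empty => simpa [seq_zero] using modEqP_refl (0 : C)
  | insert a s ha ih =>
    rw [Finset.forall_mem_insert] at h
    rw [Finset.sum_insert ha, Finset.sum_insert ha]
    exact (seq_add_modEqP h.1
      (IsUltrametricDist.norm_sum_le_of_forall_le_of_nonneg zero_le_one h.2) n).trans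
      ((modEqP_refl _).add (ih h.2))

theorem seq_natCast_modEqP (m n : ℕ) : ModEqP p ((m : Flat p).seq n) (m : C) := by
  induction m with
  | zero => simpa [seq_zero] using modEqP_refl (0 : C)
  | succ m ih =>
    simp only [Nat.cast_succ]
    exact (seq_add_modEqP (norm_natCast_le m) norm_one.le n).trans (ih.add (modEqP_refl _))

theorem norm_le_of_seq_le {x : Flat p} {θ : ℝ} {n : ℕ} (h : ‖x.seq n‖ ≤ θ) :
    ‖x‖ ≤ θ ^ p ^ n := by
  rw [← norm_seq_pow x n]
  exact pow_le_pow_left₀ (norm_nonneg _) h _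

/-- **The distance is read off modulo `p`.** -/
theorem norm_sub_le_iff {x y : Flat p} (hx : ‖x‖ ≤ 1) (hy : ‖y‖ ≤ 1) (n : ℕ) :
    ‖x - y‖ ≤ ‖(p : C)‖ ^ p ^ n ↔ ModEqP p (x.seq n) (y.seq n) := by
  have h0 := seq_sub_modEqP hx hy n
  refine ⟨fun h => ?_, fun h => norm_le_of_seq_le ?_⟩
  · have h1 : ‖(x - y).seq n‖ ≤ ‖(p : C)‖ := by
      refine (pow_le_pow_iff_left₀ (norm_nonneg _) (norm_nonneg _)
        (pow_ne_zero n hp.out.ne_zero)).1 ?_
      rwa [norm_seq_pow]
    rw [ModEqP, show x.seq n - y.seq n =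
      (x - y).seq n - ((x - y).seq n - (x.seq n - y.seq n)) by ring]
    exact norm_sub_le_of_le h1 h0
  · rw [show (x - y).seq n =
      ((x - y).seq n - (x.seq n - y.seq n)) + (x.seq n - y.seq n) by ring]
    exact norm_add_le_of_le h0 h

theorem tendsto_p_pow_pow : Tendsto (fun n => ‖(p : C)‖ ^ p ^ n) atTop (𝓝 0) :=
  (tendsto_pow_atTop_nhds_zero_of_lt_one (norm_nonneg _) norm_p_C_lt).comp
    (tendsto_pow_atTop_atTop_of_one_lt (r := p) hp.out.one_lt)

/-- Every element of `ℂ_p` is the first term of an element of the tilt. -/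
theorem exists_seq_zero_eq (a : C) : ∃ x : Flat p, x.seq 0 = a := by
  choose r hr using fun b : C => IsAlgClosed.exists_pow_nat_eq b hp.out.pos
  refine ⟨⟨fun n => r^[n] a, fun n => ?_⟩, rfl⟩
  change (r^[n + 1] a) ^ p = r^[n] a
  rw [Function.iterate_succ_apply', hr]

theorem exists_seq_eq (a : C) (n : ℕ) : ∃ x : Flat p, x.seq n = a := by
  obtain ⟨y, hy⟩ := exists_seq_zero_eq a
  refine ⟨y ^ p ^ n, ?_⟩
  rw [seq_pow_nat, seq_zero_pow, hy]

end FA.FontaineWintenberger
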