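import Fermat.Agent.FontaineWintenberger.Laurent

/-!
# The algebraic closure of the Laurent series is dense in the tilt

Integral elements of the cyclotomic tower are congruent modulo `p` to terms of `p`-power roots of
Laurent series. By almost purity every algebraic integer is modulo `p` a high power of an integral
element over the tower; lifting the minimal polynomial of that element gives the approximation.
-/

set_option autoImplicit false
set_option linter.unusedSectionVars false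

noncomputable section

open Filter FA.TateSen Finset Polynomial
open scoped Topology

namespace FA.FontaineWintenberger

variable {p : ℕ} [hp : Fact p.Prime]

local notation "C" => ℂ_[p]
local notation "Ω" => PadicAlgCl p
local notation "G" => PadicAlgCl p ≃ₐ[ℚ_[p]] PadicAlgCl p
local notation "H" => (IntermediateField.fixingSubgroup (cycInf p))

instance : CharP (baseField p) p :=
  RingHom.charP (baseField p).subtype Subtype.val_injective p

variable (p) in
/-- The radical closure of the Laurent series field. -/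
abbrev radField : IntermediateField (baseField p) (Flat p) :=
  perfectClosure (baseField p) (Flat p)

variable (p) in
/-- The algebraic closure of the Laurent series field. -/
abbrev algField : IntermediateField (baseField p) (Flat p) :=
  algebraicClosure (baseField p) (Flat p)

instance : IsAlgClosed (algField p) := IsAlgClosure.isAlgClosed (baseField p)

theorem mem_radField {x : Flat p} : x ∈ radField p ↔ ∃ j, x ^ p ^ j ∈ baseField p := by
  have : ExpChar (baseField p) p := ExpChar.prime hp.out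
  rw [mem_perfectClosure_iff_pow_mem p]
  refine exists_congr fun j => ⟨?_, fun h => ⟨⟨_, h⟩, rfl⟩⟩
  rintro ⟨a, ha⟩
  exact ha ▸ a.2

theorem radField_le : radField p ≤ algField p := by
  intro x hx
  obtain ⟨j, hj⟩ := mem_radField.1 hx
  exact mem_algebraicClosure_iff'.2 (IsIntegral.of_pow (pow_pos hp.out.pos j)
    (isIntegral_algebraMap (x := (⟨_, hj⟩ : baseField p))))

theorem coe_natCast_field (m : ℕ) : ((m : Ω) : C) = m := by
  rw [PadicComplex.coe_eq, map_natCast]

/-- **The tower modulo `p` comes from the radicals of Laurent series.** -/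
theorem exists_rad_modEqP {a : Ω} (ha : a ∈ cycInf p) (ha1 : ‖a‖ ≤ 1) (n : ℕ) :
    ∃ g ∈ radField p, ‖g‖ ≤ 1 ∧ ModEqP p (g.seq n) (a : C) := by
  obtain ⟨m, hm⟩ := mem_cycInf.1 ha
  set M := max m n
  have hz := zetaSeq_primitive (p := p) (M + 1)
  set z := zetaSeq p (M + 1) with hzd
  obtain ⟨c, hc⟩ := exists_repr hz
    (cycLevel_mono ((le_max_left m n).trans M.le_succ) hm : a ∈ cycLevel p (M + 1))
  have hπ : 0 < ‖z - 1‖ := norm_sub_one_pos (one_lt_pow₀ hp.out.one_lt M.succ_ne_zero) hz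
  have hπ1 : ‖z - 1‖ < 1 := norm_sub_one_lt norm_p_lt_one hz
  have hcint : ∀ i < deg p M, ‖c i‖ ≤ 1 := by
    intro i hi
    have h1 := (norm_term_le hz c hi).trans (hc ▸ ha1)
    rw [norm_mul, norm_pow, PadicAlgCl.norm_extends] at h1
    have h2 : ‖(p : Ω)‖ < ‖z - 1‖ ^ i := by
      rw [← norm_sub_one_pow_totient hz]
      exact pow_lt_pow_right_of_lt_one₀ hπ hπ1 hi
    rw [norm_p] at h2
    have h3 : ‖c i‖ < (p : ℝ) := by
      by_contra hlt
      have h4 : (p : ℝ) * (p : ℝ)⁻¹ < ‖c i‖ * ‖z - 1‖ ^ i :=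
        mul_lt_mul' (not_lt.1 hlt) h2 (by positivity)
          ((Nat.cast_pos.2 hp.out.pos).trans_le (not_lt.1 hlt))
      rw [mul_inv_cancel₀ (Nat.cast_ne_zero.2 hp.out.ne_zero)] at h4
      linarith
    rw [show (1 : ℝ) = (p : ℝ) ^ (0 : ℤ) by simp,
      Padic.norm_le_pow_iff_norm_lt_pow_add_one, zero_add, zpow_one]
    exact h3
  have hk : ∀ i, ∃ k : ℕ, i < deg p M → ‖c i - k‖ ≤ (p : ℝ)⁻¹ := by
    intro i
    by_cases hi : i < deg p M
    · obtain ⟨u, hu⟩ : ∃ u : ℤ_[p], (u : ℚ_[p]) = c i := ⟨⟨c i, hcint i hi⟩, rfl⟩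
      refine ⟨u.zmodRepr, fun _ => ?_⟩
      have h : ‖((u - (u.zmodRepr : ℤ_[p]) : ℤ_[p]) : ℚ_[p])‖ < 1 :=
        PadicInt.mem_nonunits.1 (PadicInt.sub_zmodRepr_mem u)
      push_cast at h
      rw [hu] at h
      rw [← zpow_neg_one, Padic.norm_le_pow_iff_norm_lt_pow_add_one, neg_add_cancel, zpow_zero]
      exact h
    · exact ⟨0, fun h => absurd h hi⟩
  choose k hk using hk
  set s : Flat p := pthRoot'^[M + 1 - n] (tee p) with hs
  have hsn : s.seq n = (tee p).seq (M + 1) := by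
    rw [hs, pthRoot'_iter_seq, Nat.add_sub_cancel' ((le_max_right m n).trans M.le_succ)]
  have hs1 : ‖s‖ ≤ 1 := by
    refine (pow_le_one_iff_of_nonneg (norm_nonneg s)
      (pow_ne_zero (M + 1 - n) hp.out.ne_zero)).1 ?_
    rw [← norm_pow, pthRoot'_iter_pow]
    exact norm_tee_le
  have hsr : s ∈ radField p :=
    mem_radField.2 ⟨M + 1 - n, by rw [pthRoot'_iter_pow]; exact tee_mem⟩
  have hterm : ∀ i ∈ range (deg p M), ‖(k i : Flat p) * s ^ i‖ ≤ 1 := fun i _ => by
    rw [norm_mul, norm_pow]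
    exact mul_le_one₀ (norm_natCast_le _) (pow_nonneg (norm_nonneg _) _)
      (pow_le_one₀ (norm_nonneg _) hs1)
  refine ⟨∑ i ∈ range (deg p M), (k i : Flat p) * s ^ i,
    sum_mem fun i _ => mul_mem (natCast_mem _ _) (pow_mem hsr i),
    IsUltrametricDist.norm_sum_le_of_forall_le_of_nonneg zero_le_one hterm, ?_⟩
  refine (seq_sum_modEqP _ _ hterm n).trans ?_
  rw [hc, PadicComplex.coe_eq, map_sum, ModEqP, ← sum_sub_distrib]
  refine IsUltrametricDist.norm_sum_le_of_forall_le_of_nonneg (norm_nonneg _) fun i hi => ?_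
  rw [mem_range] at hi
  rw [seq_mul, seq_pow_nat, hsn, map_mul, map_pow]
  refine ModEqP.mul (norm_seq_le_one (norm_natCast_le _) n) ?_
    ((seq_natCast_modEqP (k i) n).trans ?_) ?_
  · rw [norm_pow, ← PadicComplex.coe_eq, PadicComplex.norm_extends]
    exact pow_le_one₀ (norm_nonneg _) hπ1.le
  · rw [ModEqP, ← map_natCast (algebraMap Ω C), ← map_sub, ← PadicComplex.coe_eq,
      PadicComplex.norm_extends, ← map_natCast (algebraMap ℚ_[p] Ω), ← map_sub,
      PadicAlgCl.norm_extends, norm_sub_rev, ← coe_natCast_field, PadicComplex.norm_extends,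
      norm_p]
    exact hk i hi
  · refine ModEqP.pow ?_ ?_ i
    · rw [← PadicComplex.coe_eq, PadicComplex.norm_extends]; exact hπ1.le
    · rw [← PadicComplex.coe_eq]; exact tee_seq_modEqP (M + 1)

theorem norm_pow_iter_sub_le {a b : C} {θ : ℝ} (ha : ‖a‖ ≤ 1) (hb : ‖b‖ ≤ 1) (hθ : θ ≤ 1)
    (h : ‖a - b‖ ≤ θ) : ∀ j, ‖a ^ p ^ j - b ^ p ^ j‖ ≤ max (θ ^ p ^ j) ‖(p : C)‖
  | 0 => by simpa using Or.inl h
  | j + 1 => by
    have ih := norm_pow_iter_sub_le ha hb hθ h j
    have hθ0 : 0 ≤ θ := (norm_nonneg _).trans h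
    set u := a ^ p ^ j
    set v := b ^ p ^ j
    have hu : ‖u‖ ≤ 1 := by rw [norm_pow]; exact pow_le_one₀ (norm_nonneg _) ha
    have hv : ‖v‖ ≤ 1 := by rw [norm_pow]; exact pow_le_one₀ (norm_nonneg _) hb
    have h1 := norm_add_pow_sub_le (p := p) hv (norm_sub_le_of_le hu hv : ‖u - v‖ ≤ 1)
    rw [add_sub_cancel, one_pow, mul_one] at h1
    rw [pow_succ, pow_mul, pow_mul, show u ^ p - v ^ p =
      (u ^ p - v ^ p - (u - v) ^ p) + (u - v) ^ p by ring]
    refine norm_add_le_of_le (h1.trans (le_max_right _ _)) ?_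
    rw [norm_pow]
    refine (pow_le_pow_left₀ (norm_nonneg _) ih p).trans ?_
    rcases le_total (θ ^ p ^ j) ‖(p : C)‖ with hle | hle
    · rw [max_eq_right hle]
      exact (pow_le_of_le_one (norm_nonneg _) norm_p_C_lt.le hp.out.ne_zero).trans
        (le_max_right _ _)
    · rw [max_eq_left hle, ← pow_mul]
      exact le_max_left _ _

/-- Almost purity iterated: elements are high powers modulo `p`. -/
theorem exists_pow_near {L : IntermediateField ℚ_[p] Ω} (hL : cycInf p ≤ L) :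
    ∀ (j : ℕ) {x : Ω}, x ∈ L → ‖x‖ ≤ 1 →
      ∃ y ∈ L, ‖y‖ ≤ 1 ∧ ‖x - y ^ p ^ j‖ ≤ ‖(p : Ω)‖
  | 0, x, hx, hx1 => ⟨x, hx, hx1, by simp⟩
  | j + 1, x, hx, hx1 => by
    obtain ⟨y, hy, hyx⟩ := exists_pow_near hL j hx hx1
    obtain ⟨w, hw, hwy⟩ := deep_of_cycInf_le hL y hy
    have h1 : ‖y - w ^ p‖ ≤ ‖(p : Ω)‖ :=
      hwy.trans (mul_le_of_le_one_right (norm_nonneg _) hyx.1)
    have hwp : ‖w ^ p‖ ≤ 1 := by
      rw [show w ^ p = y - (y - w ^ p) by ring]
      exact norm_sub_le_of_le hyx.1 (h1.trans norm_p_lt_one.le)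
    have hw1 : ‖w‖ ≤ 1 := by
      rwa [norm_pow, pow_le_one_iff_of_nonneg (norm_nonneg _) hp.out.ne_zero] at hwp
    refine ⟨w, hw, hw1, ?_⟩
    rw [pow_succ', pow_mul, show x - (w ^ p) ^ p ^ j =
      (x - y ^ p ^ j) + (y ^ p ^ j - (w ^ p) ^ p ^ j) by ring]
    refine norm_add_le_of_le hyx.2 ?_
    rw [← geom_sum₂_mul, norm_mul]
    refine (mul_le_of_le_one_left (norm_nonneg _) ?_).trans h1
    refine IsUltrametricDist.norm_sum_le_of_forall_le_of_nonneg zero_le_one fun i _ => ?_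
    rw [norm_mul, norm_pow, norm_pow]
    exact mul_le_one₀ (pow_le_one₀ (norm_nonneg _) hyx.1) (by positivity)
      (pow_le_one₀ (norm_nonneg _) hwp)

theorem norm_coeff_prod_X_sub_le : ∀ (m : Multiset Ω), (∀ r ∈ m, ‖r‖ ≤ 1) → ∀ i,
    ‖((m.map fun r => X - Polynomial.C r).prod).coeff i‖ ≤ 1 := by
  intro m
  induction m using Multiset.induction_on with
  | empty =>
    intro _ i
    rw [Multiset.map_zero, Multiset.prod_zero, coeff_one]
    split_ifs <;> simp
  | cons r m ih =>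
    intro hm i
    rw [Multiset.map_cons, Multiset.prod_cons, coeff_mul]
    refine IsUltrametricDist.norm_sum_le_of_forall_le_of_nonneg zero_le_one fun ij _ => ?_
    rw [norm_mul]
    refine mul_le_one₀ ?_ (norm_nonneg _) (ih (fun s hs => hm s (Multiset.mem_cons_of_mem hs)) _)
    rw [coeff_sub, coeff_X, coeff_C]
    refine norm_sub_le_of_le ?_ ?_
    · split_ifs <;> simp
    · split_ifs
      · exact hm r (Multiset.mem_cons_self r m)
      · simp

theorem exists_conj_of_root {y s : Ω} (h : aeval s (minpoly (cycInf p) y) = 0) :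
    ∃ σ ∈ H, (σ : G) y = s := by
  obtain ⟨τ, hτ⟩ := minpoly.exists_algEquiv_of_root'
    (Algebra.IsAlgebraic.isAlgebraic (R := cycInf p) y) h
  exact ⟨((IntermediateField.fixingSubgroupEquiv (cycInf p)).symm τ).1,
    ((IntermediateField.fixingSubgroupEquiv (cycInf p)).symm τ).2, hτ⟩

theorem aeval_eq_monicVal {Q : (cycInf p)[X]} (hQ : Q.Monic) (s : Ω) :
    aeval s Q = monicVal Q.natDegree (fun i => (Q.coeff i : Ω)) s := by
  rw [aeval_eq_sum_range, monicVal, sum_range_succ, hQ.coeff_natDegree, one_smul, add_comm]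
  rfl

theorem map_monicVal {K K' : Type*} [Field K] [Field K'] (f : K →+* K') (d : ℕ) (c : ℕ → K)
    (x : K) : f (monicVal d c x) = monicVal d (fun i => f (c i)) (f x) := by
  simp only [monicVal, map_add, map_pow, map_sum, map_mul]

theorem monicVal_congr {K : Type*} [Field K] {d : ℕ} {c c' : ℕ → K} (x : K)
    (h : ∀ i < d, c i = c' i) : monicVal d c x = monicVal d c' x := by
  rw [monicVal, monicVal]
  exact congrArg _ (sum_congr rfl fun i hi => by rw [h i (mem_range.1 hi)])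

theorem flatGal_algField {σ : G} (h : σ ∈ H) {x : Flat p} (hx : x ∈ algField p) :
    flatGal σ x ∈ algField p :=
  (map_mem_algebraicClosure_iff (AlgHom.mk (flatGal σ) fun a =>
    flatGal_baseField h a.2)).2 hx

/-- **The algebraic elements modulo `p`.** -/
theorem exists_alg_modEqP {a : Ω} (ha1 : ‖a‖ ≤ 1) (n : ℕ) :
    ∃ r ∈ algField p, ‖r‖ ≤ 1 ∧ ModEqP p (r.seq n) (a : C) := by
  set E : IntermediateField (cycInf p) Ω := IntermediateField.adjoin (cycInf p) {a}
  have : FiniteDimensional (cycInf p) E :=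
    IntermediateField.adjoin.finiteDimensional (Algebra.IsIntegral.isIntegral a)
  set d := Module.finrank (cycInf p) E
  have hEL : cycInf p ≤ E.restrictScalars ℚ_[p] := fun x hx => E.algebraMap_mem ⟨x, hx⟩
  obtain ⟨y, hy, hy1, hya⟩ := exists_pow_near hEL d
    (IntermediateField.mem_adjoin_simple_self _ a) ha1
  set Q := minpoly (cycInf p) y with hQd
  have hyint : IsIntegral (cycInf p) y := Algebra.IsIntegral.isIntegral y
  have hQ : Q.Monic := minpoly.monic hyint
  set e := Q.natDegree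
  have he : 0 < e := minpoly.natDegree_pos hyint
  have hed : e ≤ p ^ d := by
    refine le_trans ?_ (Nat.lt_pow_self hp.out.one_lt).le
    have h := minpoly.natDegree_le (A := cycInf p) (⟨y, hy⟩ : E)
    rwa [IntermediateField.minpoly_eq] at h
  have hroots : ∀ s : Ω, aeval s Q = 0 → ‖s‖ ≤ 1 := fun s hs => by
    obtain ⟨σ, -, rfl⟩ := exists_conj_of_root hs
    rwa [norm_gal]
  have hcoeff : ∀ i, ‖(Q.coeff i : Ω)‖ ≤ 1 := fun i => by
    have hsp : (Q.map (algebraMap (cycInf p) Ω)).Splits := IsAlgClosed.splits _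
    have h := norm_coeff_prod_X_sub_le (p := p) (Q.map (algebraMap (cycInf p) Ω)).roots
      (fun r hr => hroots r (by
        rw [mem_roots (hQ.map _).ne_zero, IsRoot, eval_map, ← aeval_def] at hr
        exact hr)) i
    rwa [← hsp.eq_prod_roots_of_monic (hQ.map _), coeff_map] at h
  choose g hgmem hg1 hgc using fun i =>
    exists_rad_modEqP (Q.coeff i).2 (hcoeff i) (n + d)
  obtain ⟨r, hr⟩ := IsAlgClosed.exists_root
    (monicPoly e fun i => (⟨g i, radField_le (hgmem i)⟩ : algField p)) (by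
      rw [degree_eq_natDegree (monicPoly_monic e _).1.ne_zero, (monicPoly_monic e _).2]
      exact_mod_cast he.ne')
  have hr0 : monicVal e g (r : Flat p) = 0 := by
    rw [IsRoot, eval_monicPoly] at hr
    have h := map_monicVal (algField p).val.toRingHom e
      (fun i => (⟨g i, radField_le (hgmem i)⟩ : algField p)) r
    rw [hr, map_zero] at h
    exact h.symm
  have hr1 : ‖(r : Flat p)‖ ≤ 1 := norm_root_of_monicVal (fun i _ => hg1 i) hr0
  obtain ⟨b, hb⟩ := (UniformSpace.Completion.denseRange_coe (α := Ω)).exists_dist_lt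
    ((r : Flat p).seq (n + d)) (ε := ‖(p : C)‖)
    (norm_pos_iff.2 (Nat.cast_ne_zero.2 hp.out.ne_zero))
  rw [dist_eq_norm] at hb
  have hρ1 := norm_seq_le_one hr1 (n + d)
  have hb1 : ‖(b : C)‖ ≤ 1 := ModEqP.norm_le_one (ModEqP.symm hb.le) hρ1
  have hval : ‖monicVal e (fun i => (Q.coeff i : Ω)) b‖ ≤ ‖(p : Ω)‖ := by
    have h1 := seq_monicVal_modEqP (d := e) (c := g) (fun i _ => hg1 i) hr1 (n + d)
    rw [hr0, seq_zero] at h1
    have h2 : ModEqP p (monicVal e (fun i => (g i).seq (n + d)) ((r : Flat p).seq (n + d)))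
        (monicVal e (fun i => ((Q.coeff i : Ω) : C)) (b : C)) :=
      norm_monicVal_sub_le (norm_nonneg _) (fun i _ => hgc i)
        (fun i _ => by rw [PadicComplex.norm_extends]; exact hcoeff i) hρ1 hb1 hb.le
    have h3 := h1.trans h2
    rw [ModEqP, zero_sub, norm_neg] at h3
    simp only [PadicComplex.coe_eq] at h3
    rw [← map_monicVal (algebraMap Ω C), ← PadicComplex.coe_eq, PadicComplex.norm_extends,
      ← coe_natCast_field, PadicComplex.norm_extends] at h3
    exact h3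
  obtain ⟨s, hs, hsb⟩ := exists_root_near he (norm_nonneg _) hval
  obtain ⟨σ, hσ, hσy⟩ := exists_conj_of_root (y := y) (s := s)
    (by rw [aeval_eq_monicVal hQ]; exact hs)
  set θ : ℝ := ‖(p : Ω)‖ ^ ((e : ℝ)⁻¹)
  have hθ1 : θ ≤ 1 := Real.rpow_le_one (norm_nonneg _) norm_p_lt_one.le (by positivity)
  have hpθ : ‖(p : Ω)‖ ≤ θ := Real.self_le_rpow_of_le_one (norm_nonneg _) norm_p_lt_one.le
    (inv_le_one_of_one_le₀ (by exact_mod_cast he))
  have hpC : ‖(p : C)‖ = ‖(p : Ω)‖ := by rw [← coe_natCast_field, PadicComplex.norm_extends]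
  have hρs : ‖(r : Flat p).seq (n + d) - (s : C)‖ ≤ θ := by
    rw [show (r : Flat p).seq (n + d) - (s : C) =
      ((r : Flat p).seq (n + d) - (b : C)) + ((b : C) - (s : C)) by ring]
    refine norm_add_le_of_le (hb.le.trans (hpC ▸ hpθ)) ?_
    rw [PadicComplex.coe_eq, PadicComplex.coe_eq, ← map_sub, ← PadicComplex.coe_eq,
      PadicComplex.norm_extends]
    exact hsb
  refine ⟨flatGal σ⁻¹ r, flatGal_algField (inv_mem hσ) r.2, (norm_flatGal _ _).trans_le hr1, ?_⟩
  have hy' : ‖(flatGal σ⁻¹ (r : Flat p)).seq (n + d) - (y : C)‖ ≤ θ := by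
    have e1 : (y : C) = gal σ⁻¹ (s : C) := by
      rw [gal_coe, ← hσy, ← AlgEquiv.mul_apply, inv_mul_cancel, AlgEquiv.one_apply]
    rw [flatGal_seq, e1, ← map_sub, norm_galC]
    exact hρs
  have hfin := norm_pow_iter_sub_le
    (norm_seq_le_one ((norm_flatGal σ⁻¹ (r : Flat p)).trans_le hr1) _)
    (by rw [PadicComplex.norm_extends]; exact hy1) hθ1 hy' d
  rw [seq_pow_pow] at hfin
  have hθd : θ ^ p ^ d ≤ ‖(p : C)‖ := by
    rw [hpC]
    refine (pow_le_pow_of_le_one (Real.rpow_nonneg (norm_nonneg _) _) hθ1 hed).trans ?_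
    rw [Real.rpow_inv_natCast_pow (norm_nonneg _) he.ne']
  refine ModEqP.trans (hfin.trans (max_le hθd le_rfl)) ?_
  rw [ModEqP, PadicComplex.coe_eq, ← map_pow, PadicComplex.coe_eq, ← map_sub, ← PadicComplex.coe_eq,
    PadicComplex.norm_extends, norm_sub_rev, hpC]
  exact hya

theorem exists_coe_modEqP {c : C} (hc : ‖c‖ ≤ 1) :
    ∃ a : Ω, ‖a‖ ≤ 1 ∧ ModEqP p (a : C) c := by
  obtain ⟨a, ha⟩ := (UniformSpace.Completion.denseRange_coe (α := Ω)).exists_dist_lt c
    (ε := ‖(p : C)‖) (norm_pos_iff.2 (Nat.cast_ne_zero.2 hp.out.ne_zero))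
  rw [dist_eq_norm] at ha
  have h : ModEqP p (a : C) c := ModEqP.symm ha.le
  exact ⟨a, by rw [← PadicComplex.norm_extends]; exact h.norm_le_one hc, h⟩

theorem mem_closure_of_modEqP {S : Set (Flat p)} {x : Flat p} (hx : ‖x‖ ≤ 1)
    (h : ∀ n, ∃ g ∈ S, ‖g‖ ≤ 1 ∧ ModEqP p (g.seq n) (x.seq n)) : x ∈ closure S := by
  refine Metric.mem_closure_iff.2 fun ε hε => ?_
  obtain ⟨n, hn⟩ := ((tendsto_p_pow_pow (p := p)).eventually (gt_mem_nhds hε)).exists
  obtain ⟨g, hg, hg1, hgx⟩ := h n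
  exact ⟨g, hg, by rw [dist_eq_norm, norm_sub_rev]; exact
    ((norm_sub_le_iff hg1 hx n).2 hgx).trans_lt hn⟩

theorem exists_scale (x : Flat p) : ∃ k : ℕ, ‖tee p ^ k * x‖ ≤ 1 := by
  obtain ⟨k, hk⟩ := exists_pow_lt_of_lt_one (x := 1 / (‖x‖ + 1)) (by positivity)
    (norm_tee_lt (p := p))
  refine ⟨k, ?_⟩
  rw [norm_mul, norm_pow]
  refine (mul_le_mul_of_nonneg_right hk.le (norm_nonneg _)).trans ?_
  rw [div_mul_eq_mul_div, one_mul, div_le_one (by positivity)]
  linarith

theorem mem_closure_of_scale (L : IntermediateField (baseField p) (Flat p)) {x : Flat p} {k : ℕ}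
    (h : tee p ^ k * x ∈ closure (L : Set (Flat p))) : x ∈ closure (L : Set (Flat p)) := by
  obtain ⟨u, hu, hlim⟩ := mem_closure_iff_seq_limit.1 h
  refine mem_closure_iff_seq_limit.2 ⟨fun i => (tee p ^ k)⁻¹ * u i, fun i => ?_, ?_⟩
  · exact mul_mem (inv_mem (pow_mem (L.algebraMap_mem ⟨tee p, tee_mem⟩) k)) (hu i)
  · have h2 := hlim.const_mul (tee p ^ k)⁻¹
    rwa [inv_mul_cancel_left₀ (pow_ne_zero _ tee_ne_zero)] at h2

/-- **The algebraic closure is dense.** -/
theorem mem_closure_algField (x : Flat p) : x ∈ closure (algField p : Set (Flat p)) := by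
  obtain ⟨k, hk⟩ := exists_scale x
  refine mem_closure_of_scale _ (k := k) (mem_closure_of_modEqP hk fun n => ?_)
  obtain ⟨a, ha1, ha⟩ := exists_coe_modEqP (norm_seq_le_one hk n)
  obtain ⟨r, hr, hr1, hra⟩ := exists_alg_modEqP ha1 n
  exact ⟨r, hr, hr1, hra.trans ha⟩

/-- **The fixed elements are limits of radicals of Laurent series.** -/
theorem mem_closure_radField {x : Flat p} (hx : ∀ σ ∈ H, flatGal σ x = x) :
    x ∈ closure (radField p : Set (Flat p)) := by
  obtain ⟨k, hk⟩ := exists_scale x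
  refine mem_closure_of_scale _ (k := k) (mem_closure_of_modEqP hk fun n => ?_)
  have hfix : (tee p ^ k * x).seq n ∈ cycHat p := by
    refine (mem_cycHat_iff _).2 fun σ hσ => ?_
    rw [← flatGal_seq, map_mul, hx σ hσ, map_pow, flatGal_baseField hσ tee_mem]
  obtain ⟨_, ⟨a, ha, rfl⟩, hca⟩ := Metric.mem_closure_iff.1 hfix ‖(p : C)‖
    (norm_pos_iff.2 (Nat.cast_ne_zero.2 hp.out.ne_zero))
  rw [dist_eq_norm] at hca
  have h : ModEqP p (a : C) ((tee p ^ k * x).seq n) := ModEqP.symm hca.le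
  obtain ⟨g, hg, hg1, hga⟩ := exists_rad_modEqP ha
    (by rw [← PadicComplex.norm_extends]; exact h.norm_le_one (norm_seq_le_one hk n)) n
  exact ⟨g, hg, hg1, hga.trans h⟩

end FA.FontaineWintenberger
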