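import Mathlib.FieldTheory.KrullTopology
import Mathlib.FieldTheory.Galois.Profinite

/-!
# Homomorphisms into the automorphisms of an algebraic extension

For the Krull topology such a homomorphism is continuous once the stabilisers are open.
-/

set_option autoImplicit false

noncomputable section

open Filter
open scoped Topology

namespace FA.FontaineWintenberger

set_option linter.unusedSectionVars false

variable {K L A : Type*} [Field K] [Field L] [Algebra K L] [Group A] [TopologicalSpace A]
  [IsTopologicalGroup A]

theorem continuous_autHom (f : A →* (L ≃ₐ[K] L)) (h : ∀ x, IsOpen {a : A | f a x = x}) :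
    Continuous f := by
  refine continuous_of_continuousAt_one f ?_
  rw [ContinuousAt, map_one]
  intro s hs
  obtain ⟨E, hE, hsub⟩ := (krullTopology_mem_nhds_one_iff K L s).1 hs
  have b := Module.finBasis K E
  have hmem : (⋂ i, {a : A | f a (b i : L) = b i}) ∈ 𝓝 (1 : A) :=
    (isOpen_iInter_of_finite fun i => h (b i : L)).mem_nhds
      (Set.mem_iInter.2 fun i => by simp)
  refine Filter.mem_map.2 (Filter.mem_of_superset hmem fun a ha => hsub ?_)
  rw [Set.mem_iInter] at ha
  rw [SetLike.mem_coe, IntermediateField.mem_fixingSubgroup_iff]
  intro x hx
  have e : x = ∑ i, b.repr ⟨x, hx⟩ i • (b i : L) := by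
    have e := congrArg E.val (b.sum_repr ⟨x, hx⟩)
    simp only [map_sum, map_smul] at e
    exact e.symm
  conv_lhs => rw [e]
  conv_rhs => rw [e]
  rw [map_sum]
  exact Finset.sum_congr rfl fun i _ => by rw [map_smul, ha i]

/-- A bijective continuous homomorphism from a compact group to a Hausdorff one. -/
def contMulEquivOfBijective {B : Type*} [Group B] [TopologicalSpace B] [CompactSpace A]
    [T2Space B] (f : A →* B) (hc : Continuous f) (hf : Function.Bijective f) : A ≃ₜ* B :=
  { MulEquiv.ofBijective f hf with
    continuous_toFun := hc
    continuous_invFun := (hc.homeoOfEquivCompactToT2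
      (f := (MulEquiv.ofBijective f hf).toEquiv)).symm.continuous }

theorem contMulEquivOfBijective_apply {B : Type*} [Group B] [TopologicalSpace B] [CompactSpace A]
    [T2Space B] (f : A →* B) (hc : Continuous f) (hf : Function.Bijective f) (a : A) :
    contMulEquivOfBijective f hc hf a = f a := rfl

end FA.FontaineWintenberger
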