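import Fermat.Agent.FontaineWintenberger.Dense
import Fermat.Agent.FontaineWintenberger.Krull

/-!
# The group of the tower is the automorphism group over the Laurent series

Automorphisms over the complete field of Laurent series are isometries; so they fix the limits of
radicals, which are all the fixed elements, and infinite Galois theory gives surjectivity.
-/

set_option autoImplicit false
set_option linter.unusedSectionVars false

noncomputable section

open Filter FA.TateSen
open scoped Topology

namespace FA.FontaineWintenberger

variable {p : ℕ} [hp : Fact p.Prime]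

local notation "Ω" => PadicAlgCl p
local notation "G" => PadicAlgCl p ≃ₐ[ℚ_[p]] PadicAlgCl p
local notation "H" => (IntermediateField.fixingSubgroup (cycInf p))

instance : NontriviallyNormedField (baseField p) :=
  NontriviallyNormedField.ofNormNeOne
    ⟨⟨tee p, tee_mem⟩, fun h => tee_ne_zero (congrArg Subtype.val h), norm_tee_lt.ne⟩

instance : IsUltrametricDist (baseField p) :=
  IsUltrametricDist.isUltrametricDist_of_forall_norm_add_le_max_norm fun x y =>
    IsUltrametricDist.norm_add_le_max (x : Flat p) y

instance : CompleteSpace (baseField p) := isClosed_baseField.completeSpace_coe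

instance : NormedAlgebra (baseField p) (algField p) where
  norm_smul_le a x := (norm_mul (a : Flat p) (x : Flat p)).le

/-- **Automorphisms over the Laurent series are isometries.** -/
theorem norm_aut (τ : algField p ≃ₐ[baseField p] algField p) (x : algField p) : ‖τ x‖ = ‖x‖ := by
  rw [NormedAlgebra.norm_eq_spectralNorm (baseField p), ← spectralNorm_eq_of_equiv τ x,
    ← NormedAlgebra.norm_eq_spectralNorm (baseField p)]

/-- An element of the group of the tower as an automorphism over the Laurent series. -/
def towerAutFun (σ : H) : algField p ≃ₐ[baseField p] algField p where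
  toFun x := ⟨flatGal (σ : G) x, flatGal_algField σ.2 x.2⟩
  invFun x := ⟨flatGal (σ : G)⁻¹ x, flatGal_algField (inv_mem σ.2) x.2⟩
  left_inv _ := Subtype.ext (flatGal_inv_apply _ _)
  right_inv _ := Subtype.ext (flatGal_apply_inv _ _)
  map_mul' x y := Subtype.ext (map_mul (flatGal (σ : G)) (x : Flat p) y)
  map_add' x y := Subtype.ext (map_add (flatGal (σ : G)) (x : Flat p) y)
  commutes' r := Subtype.ext (flatGal_baseField σ.2 r.2)

variable (p) in
/-- **The group of the tower acting on the algebraic closure of the Laurent series.** -/
def towerAut : H →* (algField p ≃ₐ[baseField p] algField p) where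
  toFun := towerAutFun
  map_one' := AlgEquiv.ext fun x => Subtype.ext (flatGal_one (x : Flat p))
  map_mul' σ τ := AlgEquiv.ext fun x => Subtype.ext (flatGal_mul (σ : G) τ (x : Flat p))

theorem coe_towerAut (σ : H) (x : algField p) :
    ((towerAut p σ x : algField p) : Flat p) = flatGal (σ : G) x := rfl

theorem eq_on_closure {f g : Flat p → Flat p} (hf : Continuous f) (hg : Continuous g)
    {S : Set (Flat p)} (h : ∀ x ∈ S, f x = g x) {x : Flat p} (hx : x ∈ closure S) : f x = g x :=
  (closure_minimal h (isClosed_eq hf hg)) hx

theorem towerAut_injective : Function.Injective (towerAut p) := by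
  refine (injective_iff_map_eq_one _).2 fun σ hσ => Subtype.ext (eq_one_of_flatGal fun x => ?_)
  refine eq_on_closure (g := id) (isometry_flatGal _).continuous continuous_id (fun y hy => ?_)
    (mem_closure_algField x)
  have h := congrArg (fun f : algField p ≃ₐ[baseField p] algField p => ((f ⟨y, hy⟩ : algField p) :
    Flat p)) hσ
  exact h

theorem isOpen_stabilizer_tower (x : algField p) : IsOpen {σ : H | towerAut p σ x = x} := by
  let S : Subgroup H := (MulAction.stabilizer (algField p ≃ₐ[baseField p] algField p) x).comap
    (towerAut p)
  have hS : (S : Set H) = {σ : H | towerAut p σ x = x} := rfl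
  rw [← hS]
  have hclosed : IsClosed (S : Set H) := by
    have e : (S : Set H) = Subtype.val ⁻¹' {σ : G | flatGal σ (x : Flat p) = x} := by
      ext σ
      exact ⟨fun h => congrArg Subtype.val h, fun h => Subtype.ext h⟩
    rw [e]
    exact (isClosed_flatGal_stabilizer _).preimage continuous_subtype_val
  have hfin : ((minpoly (baseField p) x).rootSet (algField p)).Finite := Set.toFinite _
  have : Finite (H ⧸ S) := by
    have := hfin.to_subtype
    refine Finite.of_injective (β := (minpoly (baseField p) x).rootSet (algField p))
      (Quotient.lift (fun σ : H => ⟨towerAut p σ x, ?_⟩) ?_) ?_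
    · refine (Polynomial.mem_rootSet_of_ne (minpoly.ne_zero (Algebra.IsIntegral.isIntegral x))).2 ?_
      rw [Polynomial.aeval_algHom_apply, minpoly.aeval, map_zero]
    · intro a b hab
      have h : towerAut p (a⁻¹ * b) x = x := QuotientGroup.leftRel_apply.1 hab
      refine Subtype.ext ?_
      change towerAut p a x = towerAut p b x
      conv_lhs => rw [← h]
      rw [← AlgEquiv.mul_apply, ← map_mul, mul_inv_cancel_left]
    · intro a b
      induction a using Quotient.inductionOn
      induction b using Quotient.inductionOn
      rename_i a b
      intro h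
      refine Quotient.sound (QuotientGroup.leftRel_apply.2 ?_)
      have h1 : towerAut p a x = towerAut p b x := congrArg Subtype.val h
      change towerAut p (a⁻¹ * b) x = x
      rw [map_mul, AlgEquiv.mul_apply, ← h1, ← AlgEquiv.mul_apply, ← map_mul, inv_mul_cancel,
        map_one, AlgEquiv.one_apply]
  have : S.FiniteIndex := Subgroup.finiteIndex_of_finite_quotient
  exact S.isOpen_of_isClosed_of_finiteIndex hclosed

theorem continuous_towerAut : Continuous (towerAut p) :=
  continuous_autHom _ isOpen_stabilizer_tower

instance compactSpace_tower : CompactSpace H :=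
  isCompact_iff_compactSpace.1 ((InfiniteGalois.fixingSubgroup_isClosed (cycInf p)).isCompact)

variable (p) in
/-- The elements fixed by the group of the tower. -/
def fixedTower : IntermediateField (baseField p) (algField p) :=
  IntermediateField.fixedField (towerAut p).range

theorem mem_fixedTower {x : algField p} : x ∈ fixedTower p ↔ ∀ σ : H, towerAut p σ x = x :=
  ⟨fun h σ => h ⟨_, σ, rfl⟩, fun h => by rintro ⟨_, σ, rfl⟩; exact h σ⟩

instance : CharP (algField p) p := RingHom.charP (algField p).val.toRingHom Subtype.val_injective p

instance : CharP (fixedTower p) p :=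
  RingHom.charP (fixedTower p).val.toRingHom Subtype.val_injective p

instance : PerfectField (fixedTower p) := by
  have : ExpChar (fixedTower p) p := ExpChar.prime hp.out
  have : PerfectRing (fixedTower p) p := PerfectRing.ofSurjective _ p fun x => by
    obtain ⟨y, hy⟩ := IsAlgClosed.exists_pow_nat_eq (x : algField p) hp.out.pos
    refine ⟨⟨y, mem_fixedTower.2 fun σ => ?_⟩, Subtype.ext hy⟩
    refine frobenius_inj (algField p) p ?_
    rw [frobenius_def, frobenius_def, ← map_pow, hy]
    exact mem_fixedTower.1 x.2 σ
  exact PerfectRing.toPerfectField _ p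

instance : Algebra.IsAlgebraic (fixedTower p) (algField p) :=
  Algebra.IsAlgebraic.tower_top (K := baseField p) _

instance : IsGalois (fixedTower p) (algField p) where
  to_normal := normal_iff.2 fun y => ⟨Algebra.IsIntegral.isIntegral y, IsAlgClosed.splits _⟩

/-- An automorphism over the Laurent series fixes everything the tower fixes. -/
theorem aut_fixes (τ : algField p ≃ₐ[baseField p] algField p) {x : algField p}
    (hx : x ∈ fixedTower p) : τ x = x := by
  rw [← sub_eq_zero, ← norm_le_zero_iff]
  refine le_of_forall_pos_lt_add fun ε hε => ?_
  rw [zero_add]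
  have hxf : ∀ σ ∈ H, flatGal σ (x : Flat p) = x := fun σ hσ =>
    congrArg Subtype.val (mem_fixedTower.1 hx ⟨σ, hσ⟩)
  obtain ⟨g, hg, hgx⟩ := Metric.mem_closure_iff.1 (mem_closure_radField hxf) ε hε
  set g' : algField p := ⟨g, radField_le hg⟩
  obtain ⟨j, hj⟩ := mem_radField.1 hg
  have hg' : τ g' = g' := by
    have : ExpChar (algField p) p := ExpChar.prime hp.out
    refine iterateFrobenius_inj (algField p) p j ?_
    rw [iterateFrobenius_def, iterateFrobenius_def, ← map_pow]
    exact τ.commutes ⟨_, hj⟩
  have hd : ‖x - g'‖ < ε := by
    rw [dist_eq_norm] at hgx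
    exact hgx
  rw [show τ x - x = τ (x - g') + -(x - g') by rw [map_sub, hg']; ring]
  refine lt_of_le_of_lt (IsUltrametricDist.norm_add_le_max _ _) ?_
  rw [norm_neg, norm_aut, max_self]
  exact hd

theorem towerAut_surjective : Function.Surjective (towerAut p) := by
  intro τ
  let ψ : H →* (algField p ≃ₐ[fixedTower p] algField p) :=
    { toFun := fun σ => { (towerAut p σ).toRingEquiv with
        commutes' := fun r => mem_fixedTower.1 r.2 σ }
      map_one' := AlgEquiv.ext fun x => by
        change towerAut p 1 x = x
        rw [map_one, AlgEquiv.one_apply]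
      map_mul' := fun a b => AlgEquiv.ext fun x => by
        change towerAut p (a * b) x = towerAut p a (towerAut p b x)
        rw [map_mul, AlgEquiv.mul_apply] }
  have hψ : Continuous ψ := continuous_autHom ψ fun x => isOpen_stabilizer_tower x
  let R : ClosedSubgroup (algField p ≃ₐ[fixedTower p] algField p) :=
    ⟨ψ.range, (isCompact_range hψ).isClosed⟩
  have hbot : IntermediateField.fixedField R.toSubgroup = ⊥ := by
    refine le_antisymm (fun x hx => ?_) bot_le
    have hxm : x ∈ fixedTower p := mem_fixedTower.2 fun σ => hx ⟨ψ σ, σ, rfl⟩
    exact IntermediateField.mem_bot.2 ⟨⟨x, hxm⟩, rfl⟩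
  have hR := InfiniteGalois.fixingSubgroup_fixedField R
  rw [hbot, IntermediateField.fixingSubgroup_bot] at hR
  let τ' : algField p ≃ₐ[fixedTower p] algField p :=
    { τ.toRingEquiv with commutes' := fun r => aut_fixes τ r.2 }
  obtain ⟨σ, hσ⟩ : τ' ∈ R.toSubgroup := hR ▸ Subgroup.mem_top τ'
  exact ⟨σ, AlgEquiv.ext fun x =>
    DFunLike.congr_fun hσ x⟩

variable (p) in
/-- **Fontaine–Wintenberger**: the group of the cyclotomic tower is the group of automorphisms
over the Laurent series of their algebraic closure in the tilt. -/
def towerEquiv : H ≃ₜ* (algField p ≃ₐ[baseField p] algField p) :=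
  have : T2Space (algField p ≃ₐ[baseField p] algField p) := krullTopology_t2
  contMulEquivOfBijective (towerAut p) continuous_towerAut
    ⟨towerAut_injective, towerAut_surjective⟩

end FA.FontaineWintenberger
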