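import Fermat.Agent.TateSen.CyclotomicDeep
import Mathlib.NumberTheory.Padics.Complex

/-!
# Sequences compatible for the `p`-th power up to a small error

A sequence in `ℂ_p` with `u (n + 1) ^ p` near `u n` and roots of bounded growth is near exactly one
sequence compatible for the `p`-th power: the limit of `u (n + k) ^ p ^ k`.
-/

set_option autoImplicit false
set_option linter.unusedSectionVars false

noncomputable section

open Filter FA.TateSen
open scoped Topology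

namespace FA.FontaineWintenberger

variable {p : ℕ} [hp : Fact p.Prime]

local notation "C" => ℂ_[p]

variable (p) in
/-- The `p ^ n`-th root of a real number. -/
def root (B : ℝ) (n : ℕ) : ℝ := B ^ (((p : ℝ) ^ n)⁻¹)

theorem root_pos {B : ℝ} (hB : 1 ≤ B) (n : ℕ) : 0 < root p B n :=
  Real.rpow_pos_of_pos (by linarith) _

theorem one_le_root {B : ℝ} (hB : 1 ≤ B) (n : ℕ) : 1 ≤ root p B n :=
  Real.one_le_rpow hB (by positivity)

theorem root_pow {B : ℝ} (hB : 0 ≤ B) (n k : ℕ) : root p B (n + k) ^ p ^ k = root p B n := by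
  have h : (p : ℝ) ≠ 0 := by exact_mod_cast hp.out.ne_zero
  rw [root, root, ← Real.rpow_natCast, ← Real.rpow_mul hB]
  congr 1
  push_cast
  rw [pow_add]
  field_simp

theorem root_mono {A B : ℝ} (hA : 0 ≤ A) (h : A ≤ B) (n : ℕ) : root p A n ≤ root p B n :=
  Real.rpow_le_rpow hA h (by positivity)

theorem root_mul {A B : ℝ} (hA : 0 ≤ A) (hB : 0 ≤ B) (n : ℕ) :
    root p (A * B) n = root p A n * root p B n :=
  Real.mul_rpow hA hB

theorem tendsto_root {B : ℝ} (hB : 0 < B) : Tendsto (root p B) atTop (𝓝 1) := by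
  have h : Tendsto (fun n : ℕ => ((p : ℝ) ^ n)⁻¹) atTop (𝓝 0) :=
    tendsto_inv_atTop_zero.comp
      (tendsto_pow_atTop_atTop_of_one_lt (by exact_mod_cast hp.out.one_lt))
  have h2 := ((Real.continuous_const_rpow hB.ne').tendsto (0 : ℝ)).comp h
  rwa [Real.rpow_zero] at h2

theorem norm_p_C : ‖(p : C)‖ = (p : ℝ)⁻¹ := by
  rw [← PadicComplex.coe_natCast, PadicComplex.norm_extends]
  exact norm_p

theorem norm_p_C_lt : ‖(p : C)‖ < 1 := by
  rw [norm_p_C]; exact inv_lt_one_of_one_lt₀ (by exact_mod_cast hp.out.one_lt)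

/-- One `p`-th power sharpens a congruence. -/
theorem norm_pow_sub_pow_le {a b : C} {A r : ℝ} (hb : ‖b‖ ≤ A) (hr1 : r ≤ 1)
    (h : ‖a - b‖ ≤ r * A) :
    ‖a ^ p - b ^ p‖ ≤ max (r ^ (p - 1)) ‖(p : C)‖ * r * A ^ p := by
  have hA : 0 ≤ A := (norm_nonneg b).trans hb
  have hrA : 0 ≤ r * A := (norm_nonneg _).trans h
  rcases eq_or_lt_of_le hA with hA0 | hA0
  · have h1 : b = 0 := norm_le_zero_iff.1 (hA0 ▸ hb)
    have h2 : a = b := sub_eq_zero.1 (norm_le_zero_iff.1 (by simpa [← hA0] using h))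
    rw [h2, sub_self, norm_zero, ← hA0, zero_pow hp.out.ne_zero, mul_zero]
  have hr : 0 ≤ r := le_of_mul_le_mul_right (by simpa using hrA) hA0
  set d := a - b with hd
  have e : a ^ p - b ^ p = d ^ p + ((b + d) ^ p - b ^ p - d ^ p) := by
    rw [hd, add_sub_cancel]; ring
  rw [e]
  refine norm_add_le_of_le ?_ ?_
  · rw [norm_pow]
    refine (pow_le_pow_left₀ (norm_nonneg _) h p).trans ?_
    rw [mul_pow, ← pow_sub_one_mul hp.out.ne_zero r]
    gcongr
    exact le_max_left _ _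
  · rw [add_pow_prime_eq hp.out, add_add_sub_sub]
    set S := ∑ k ∈ Finset.Ioo 0 p, b ^ (k - 1) * d ^ (p - k - 1) * ((p.choose k / p : ℕ) : C)
    have hdA : ‖d‖ ≤ A := h.trans (mul_le_of_le_one_left hA hr1)
    have hS : ‖S‖ ≤ A ^ (p - 2) := by
      refine IsUltrametricDist.norm_sum_le_of_forall_le_of_nonneg (pow_nonneg hA _) fun k hk => ?_
      rw [Finset.mem_Ioo] at hk
      rw [norm_mul, norm_mul, norm_pow, norm_pow]
      calc ‖b‖ ^ (k - 1) * ‖d‖ ^ (p - k - 1) * ‖((p.choose k / p : ℕ) : C)‖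
          ≤ A ^ (k - 1) * A ^ (p - k - 1) * 1 := by
            gcongr
            exact norm_natCast_le _
        _ = A ^ (p - 2) := by rw [mul_one, ← pow_add]; congr 1; omega
    rw [norm_mul, norm_mul, norm_mul]
    calc ‖(p : C)‖ * ‖b‖ * ‖d‖ * ‖S‖ ≤ ‖(p : C)‖ * A * (r * A) * A ^ (p - 2) := by gcongr
      _ = ‖(p : C)‖ * r * A ^ p := by
          obtain ⟨q, hq⟩ : ∃ q, p = q + 2 := ⟨p - 2, by have := hp.out.two_le; omega⟩
          rw [show p - 2 = q by omega, show A ^ p = A ^ (q + 2) by rw [← hq]]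
          ring
      _ ≤ max (r ^ (p - 1)) ‖(p : C)‖ * r * A ^ p := by
          gcongr
          exact le_max_right _ _

variable (p) in
/-- The factor gained by a `p`-th power from the error `θ`. -/
def gain (θ : ℝ) : ℝ := max (θ ^ (p - 1)) ‖(p : C)‖

theorem gain_facts {θ : ℝ} (h0 : 0 ≤ θ) (h1 : θ < 1) : 0 ≤ gain p θ ∧ gain p θ < 1 :=
  ⟨(norm_nonneg _).trans (le_max_right _ _),
    max_lt (pow_lt_one₀ h0 h1 (by have := hp.out.two_le; omega)) norm_p_C_lt⟩

/-- Iterated powers sharpen congruences geometrically. -/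
theorem norm_pow_pow_sub_le {a b : C} {A θ : ℝ} (hA : 1 ≤ A) (hb : ‖b‖ ≤ A) (h0 : 0 ≤ θ)
    (h1 : θ < 1) (h : ‖a - b‖ ≤ θ) :
    ∀ k : ℕ, ‖a ^ p ^ k - b ^ p ^ k‖ ≤ gain p θ ^ k * θ * A ^ p ^ k
  | 0 => by simpa using h.trans (le_mul_of_one_le_right h0 hA)
  | k + 1 => by
    obtain ⟨hg0, hg1⟩ := gain_facts (p := p) h0 h1
    have hk : gain p θ ^ k * θ ≤ θ := mul_le_of_le_one_left h0 (pow_le_one₀ hg0 hg1.le)
    have h2 := norm_pow_sub_pow_le (a := a ^ p ^ k) (b := b ^ p ^ k) (A := A ^ p ^ k)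
      (r := gain p θ ^ k * θ) (by rw [norm_pow]; exact pow_le_pow_left₀ (norm_nonneg _) hb _)
      (hk.trans h1.le) (norm_pow_pow_sub_le hA hb h0 h1 h k)
    rw [pow_succ p k, pow_mul, pow_mul, pow_mul]
    refine h2.trans ?_
    have hg : max ((gain p θ ^ k * θ) ^ (p - 1)) ‖(p : C)‖ ≤ gain p θ :=
      max_le_max (pow_le_pow_left₀ (by positivity) hk _) le_rfl
    calc max ((gain p θ ^ k * θ) ^ (p - 1)) ‖(p : C)‖ * (gain p θ ^ k * θ) * (A ^ p ^ k) ^ p
        ≤ gain p θ * (gain p θ ^ k * θ) * (A ^ p ^ k) ^ p := by gcongr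
      _ = gain p θ ^ (k + 1) * θ * (A ^ p ^ k) ^ p := by ring

/-- Two sequences are eventually at distance at most some `θ < 1`. -/
def Near (u v : ℕ → C) : Prop :=
  ∃ θ : ℝ, 0 ≤ θ ∧ θ < 1 ∧ ∀ᶠ n in atTop, ‖u n - v n‖ ≤ θ

/-- The `p ^ n`-th powers stay bounded. -/
def Bdd (u : ℕ → C) : Prop :=
  ∃ B : ℝ, 1 ≤ B ∧ ∀ᶠ n in atTop, ‖u n‖ ≤ root p B n

/-- Compatible up to a small error. -/
def Compat (u : ℕ → C) : Prop :=
  Bdd u ∧ Near (fun n => u (n + 1) ^ p) u

theorem Near.refl (u : ℕ → C) : Near u u :=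
  ⟨0, le_rfl, one_pos, Eventually.of_forall fun n => by rw [sub_self, norm_zero]⟩

theorem Near.symm {u v : ℕ → C} : Near u v → Near v u :=
  fun ⟨θ, h0, h1, h⟩ => ⟨θ, h0, h1, h.mono fun n hn => by rwa [norm_sub_rev]⟩

theorem Near.trans {u v w : ℕ → C} : Near u v → Near v w → Near u w := by
  rintro ⟨θ, h0, h1, h⟩ ⟨η, k0, k1, k⟩
  refine ⟨max θ η, le_max_of_le_left h0, max_lt h1 k1, (h.and k).mono fun n hn => ?_⟩
  rw [show u n - w n = (u n - v n) + (v n - w n) by ring]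
  exact norm_add_le_of_le (hn.1.trans (le_max_left _ _)) (hn.2.trans (le_max_right _ _))

theorem Near.add {u v u' v' : ℕ → C} : Near u v → Near u' v' →
    Near (fun n => u n + u' n) fun n => v n + v' n := by
  rintro ⟨θ, h0, h1, h⟩ ⟨η, k0, k1, k⟩
  refine ⟨max θ η, le_max_of_le_left h0, max_lt h1 k1, (h.and k).mono fun n hn => ?_⟩
  rw [add_sub_add_comm]
  exact norm_add_le_of_le (hn.1.trans (le_max_left _ _)) (hn.2.trans (le_max_right _ _))

theorem Near.neg {u v : ℕ → C} : Near u v → Near (fun n => -u n) fun n => -v n :=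
  fun ⟨θ, h0, h1, h⟩ => ⟨θ, h0, h1, h.mono fun n hn => by rwa [← neg_sub', norm_neg]⟩

/-- A bounded factor keeps sequences near. -/
theorem Near.mul_left {u v w : ℕ → C} (hw : Bdd w) : Near u v →
    Near (fun n => w n * u n) fun n => w n * v n := by
  rintro ⟨θ, h0, h1, h⟩
  obtain ⟨B, hB, hBw⟩ := hw
  have hlim : Tendsto (fun n => root p B n * θ) atTop (𝓝 θ) := by
    simpa using (tendsto_root (p := p) (by linarith : (0 : ℝ) < B)).mul_const θ
  refine ⟨(θ + 1) / 2, by linarith, by linarith,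
    ((h.and hBw).and (hlim.eventually (eventually_le_nhds
      (by linarith : θ < (θ + 1) / 2)))).mono fun n hn => ?_⟩
  obtain ⟨⟨hu, hwn⟩, hn⟩ := hn
  rw [← mul_sub, norm_mul]
  exact (mul_le_mul hwn hu (norm_nonneg _) (root_pos hB n).le).trans hn

theorem Bdd.add {u v : ℕ → C} : Bdd u → Bdd v → Bdd fun n => u n + v n := by
  rintro ⟨A, hA, hu⟩ ⟨B, hB, hv⟩
  refine ⟨max A B, le_max_of_le_left hA, (hu.and hv).mono fun n hn => ?_⟩
  exact norm_add_le_of_le (hn.1.trans (root_mono (by linarith) (le_max_left _ _) n))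
    (hn.2.trans (root_mono (by linarith) (le_max_right _ _) n))

theorem Bdd.mul {u v : ℕ → C} : Bdd u → Bdd v → Bdd fun n => u n * v n := by
  rintro ⟨A, hA, hu⟩ ⟨B, hB, hv⟩
  refine ⟨A * B, one_le_mul_of_one_le_of_one_le hA hB, (hu.and hv).mono fun n hn => ?_⟩
  rw [norm_mul, root_mul (by linarith) (by linarith)]
  exact mul_le_mul hn.1 hn.2 (norm_nonneg _) (root_pos hA n).le

theorem Bdd.neg {u : ℕ → C} : Bdd u → Bdd fun n => -u n :=
  fun ⟨A, hA, hu⟩ => ⟨A, hA, hu.mono fun n hn => by rwa [norm_neg]⟩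

theorem bdd_of_le_one {u : ℕ → C} (h : ∀ n, ‖u n‖ ≤ 1) : Bdd u :=
  ⟨1, le_rfl, Eventually.of_forall fun n => (h n).trans (one_le_root le_rfl n)⟩

theorem Bdd.pow_shift {u : ℕ → C} : Bdd u → Bdd fun n => u (n + 1) ^ p := by
  rintro ⟨A, hA, hu⟩
  obtain ⟨N, hN⟩ := eventually_atTop.1 hu
  refine ⟨A, hA, eventually_atTop.2 ⟨N, fun n hn => ?_⟩⟩
  have := pow_le_pow_left₀ (norm_nonneg _) (hN (n + 1) (by omega)) p
  have h2 := root_pow (p := p) (by linarith : (0 : ℝ) ≤ A) n 1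
  rw [pow_one] at h2
  rwa [← norm_pow, h2] at this

/-- Exactly compatible sequences have bounded growth. -/
theorem bdd_of_exact {f : ℕ → C} (hf : ∀ n, f (n + 1) ^ p = f n) : Bdd f := by
  have hpow : ∀ n, f n ^ p ^ n = f 0 := by
    intro n
    induction n with
    | zero => simp
    | succ n ih => rw [pow_succ', pow_mul, hf, ih]
  refine ⟨max ‖f 0‖ 1, le_max_right _ _, Eventually.of_forall fun n => ?_⟩
  refine (pow_le_pow_iff_left₀ (norm_nonneg _) (root_pos (le_max_right _ _) n).le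
    (pow_ne_zero n hp.out.ne_zero)).1 ?_
  have h := root_pow (p := p) (le_trans zero_le_one (le_max_right ‖f 0‖ 1)) 0 n
  rw [zero_add] at h
  rw [← norm_pow, hpow, h, root, pow_zero, inv_one, Real.rpow_one]
  exact le_max_left _ _

theorem apply_eq_pow {f : ℕ → C} (hf : ∀ n, f (n + 1) ^ p = f n) (n : ℕ) :
    ∀ k : ℕ, f (n + k) ^ p ^ k = f n
  | 0 => by simp
  | k + 1 => by rw [pow_succ', pow_mul, ← add_assoc, hf, apply_eq_pow hf n k]

/-- Near compatible sequences are equal. -/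
theorem eq_of_near {f g : ℕ → C} (hf : ∀ n, f (n + 1) ^ p = f n) (hg : ∀ n, g (n + 1) ^ p = g n)
    (h : Near f g) : f = g := by
  obtain ⟨θ, h0, h1, h⟩ := h
  obtain ⟨B, hB, hgB⟩ := bdd_of_exact hg
  obtain ⟨N, hN⟩ := eventually_atTop.1 (h.and hgB)
  funext n
  refine sub_eq_zero.1 (norm_le_zero_iff.1 ?_)
  have hlim : Tendsto (fun k => gain p θ ^ k * θ * root p B n) atTop (𝓝 0) := by
    simpa using ((tendsto_pow_atTop_nhds_zero_of_lt_one (gain_facts h0 h1).1
      (gain_facts (p := p) h0 h1).2).mul_const θ).mul_const (root p B n)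
  refine ge_of_tendsto hlim (eventually_atTop.2 ⟨N, fun k hk => ?_⟩)
  obtain ⟨h2, h3⟩ := hN (n + k) (by omega)
  have h4 := norm_pow_pow_sub_le (one_le_root hB (n + k)) h3 h0 h1 h2 k
  rwa [apply_eq_pow hf, apply_eq_pow hg, root_pow (by linarith)] at h4

/-- The limit of the powers. -/
def limitSeq (u : ℕ → C) (n : ℕ) : C := limUnder atTop fun k => u (n + k) ^ p ^ k

theorem tendsto_limitSeq {u : ℕ → C} (hu : Compat u) (n : ℕ) :
    Tendsto (fun k => u (n + k) ^ p ^ k) atTop (𝓝 (limitSeq u n)) := by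
  obtain ⟨⟨B, hB, hBu⟩, θ, h0, h1, h⟩ := hu
  obtain ⟨N, hN⟩ := eventually_atTop.1 (h.and hBu)
  refine CauchySeq.tendsto_limUnder ?_
  obtain ⟨hg0, hg1⟩ := gain_facts (p := p) h0 h1
  have hstep : ∀ k, N ≤ k → dist (u (n + k) ^ p ^ k) (u (n + (k + 1)) ^ p ^ (k + 1)) ≤
      θ * root p B n * gain p θ ^ k := fun k hk => by
    obtain ⟨h2, h3⟩ := hN (n + k) (by omega)
    have h4 := norm_pow_pow_sub_le (one_le_root hB (n + k)) h3 h0 h1 h2 k
    rw [root_pow (by linarith), ← pow_mul, ← pow_succ'] at h4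
    rw [dist_eq_norm, norm_sub_rev, ← add_assoc]
    exact h4.trans_eq (by ring)
  rw [← cauchySeq_shift N]
  refine cauchySeq_of_le_geometric (gain p θ) (θ * root p B n * gain p θ ^ N) hg1 fun k => ?_
  rw [mul_assoc, ← pow_add, add_comm N k, add_right_comm k 1 N]
  exact hstep (k + N) (by omega)

theorem limitSeq_pow {u : ℕ → C} (hu : Compat u) (n : ℕ) :
    limitSeq u (n + 1) ^ p = limitSeq u n := by
  refine tendsto_nhds_unique ((tendsto_limitSeq hu (n + 1)).pow p) ?_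
  refine ((tendsto_limitSeq hu n).comp (tendsto_add_atTop_nat 1)).congr fun k => ?_
  simp only [Function.comp_apply]
  rw [← pow_mul, ← pow_succ, add_right_comm, add_assoc]

theorem near_limitSeq {u : ℕ → C} (hu : Compat u) : Near (limitSeq u) u := by
  have hlim0 := tendsto_limitSeq hu
  obtain ⟨⟨B, hB, hBu⟩, θ, h0, h1, h⟩ := hu
  obtain ⟨N, hN⟩ := eventually_atTop.1 (h.and hBu)
  obtain ⟨hg0, hg1⟩ := gain_facts (p := p) h0 h1
  have hlim : Tendsto (fun n => θ * root p B n) atTop (𝓝 θ) := by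
    simpa using (tendsto_root (p := p) (by linarith : (0 : ℝ) < B)).const_mul θ
  refine ⟨(θ + 1) / 2, by linarith, by linarith, ?_⟩
  filter_upwards [eventually_ge_atTop N, hlim.eventually (eventually_le_nhds
    (by linarith : θ < (θ + 1) / 2))] with n hn hnθ
  refine le_trans ?_ hnθ
  have hstep : ∀ k, ‖u (n + k) ^ p ^ k - u n‖ ≤ θ * root p B n := by
    intro k
    induction k with
    | zero => simpa using mul_nonneg h0 (root_pos hB n).le
    | succ k ih =>
      obtain ⟨h2, h3⟩ := hN (n + k) (by omega)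
      have h4 := norm_pow_pow_sub_le (one_le_root hB (n + k)) h3 h0 h1 h2 k
      rw [root_pow (by linarith), ← pow_mul, ← pow_succ'] at h4
      rw [← add_assoc, ← sub_add_sub_cancel _ (u (n + k) ^ p ^ k)]
      refine norm_add_le_of_le (h4.trans ?_) ih
      exact mul_le_mul_of_nonneg_right (mul_le_of_le_one_left h0 (pow_le_one₀ hg0 hg1.le))
        (root_pos hB n).le
  exact le_of_tendsto' ((hlim0 n).sub_const (u n)).norm hstep

end FA.FontaineWintenberger
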