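import Fermat.Agent.FontaineWintenberger.Main
import Mathlib.FieldTheory.AbsoluteGaloisGroup

/-!
# The theorem of Fontaine and Wintenberger

The absolute Galois groups of `ℚ_p(μ_{p^∞})` and of `𝔽_p((t))` are isomorphic as topological
groups.
-/

set_option autoImplicit false
set_option linter.unusedSectionVars false

noncomputable section

open FA.TateSen
open scoped Topology

namespace FA.FontaineWintenberger

/-- Automorphism groups of isomorphic extensions. -/
def autTransfer {K L K' L' : Type*} [Field K] [Field L] [Algebra K L] [Field K'] [Field L']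
    [Algebra K' L'] (κ : K ≃+* K') (φ : L ≃+* L')
    (hφ : ∀ b, φ (algebraMap K L b) = algebraMap K' L' (κ b)) :
    (L ≃ₐ[K] L) ≃* (L' ≃ₐ[K'] L') where
  toFun σ := AlgEquiv.ofRingEquiv (f := (φ.symm.trans σ.toRingEquiv).trans φ) fun a => by
    obtain ⟨b, rfl⟩ := κ.surjective a
    rw [← hφ]
    simp
  invFun τ := AlgEquiv.ofRingEquiv (f := (φ.trans τ.toRingEquiv).trans φ.symm) fun b => by
    simp [hφ, φ.symm_apply_eq]
  left_inv σ := AlgEquiv.ext fun x => by simp
  right_inv τ := AlgEquiv.ext fun x => by simp
  map_mul' σ τ := AlgEquiv.ext fun x => by simp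

theorem autTransfer_apply {K L K' L' : Type*} [Field K] [Field L] [Algebra K L] [Field K']
    [Field L'] [Algebra K' L'] (κ : K ≃+* K') (φ : L ≃+* L')
    (hφ : ∀ b, φ (algebraMap K L b) = algebraMap K' L' (κ b)) (σ : L ≃ₐ[K] L) (x : L') :
    autTransfer κ φ hφ σ x = φ (σ (φ.symm x)) := rfl

variable (p : ℕ) [hp : Fact p.Prime]

local notation "Ω" => PadicAlgCl p
local notation "G" => PadicAlgCl p ≃ₐ[ℚ_[p]] PadicAlgCl p
local notation "H" => (IntermediateField.fixingSubgroup (cycInf p))

instance : IsAlgClosure (cycInf p) Ω :=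
  ⟨(inferInstance : IsAlgClosed Ω), Algebra.IsAlgebraic.tower_top (K := ℚ_[p]) _⟩

/-- The Laurent series as the base field. -/
def laurentIso : LaurentSeries (ZMod p) ≃+* baseField p := (laurentHom p).rangeRestrictFieldEquiv

/-- The algebraic closure of the Laurent series, read in the tilt. -/
def laurentClosureIso : algField p ≃+* AlgebraicClosure (LaurentSeries (ZMod p)) :=
  IsAlgClosure.equivOfEquiv _ _ (laurentIso p).symm

theorem laurentClosureIso_algebraMap (b : baseField p) :
    laurentClosureIso p (algebraMap _ _ b) = algebraMap _ _ ((laurentIso p).symm b) :=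
  IsAlgClosure.equivOfEquiv_algebraMap _ _ _ b

/-- The group of the tower to the absolute group of the Laurent series. -/
def toLaurentGal : H →* (AlgebraicClosure (LaurentSeries (ZMod p)) ≃ₐ[LaurentSeries (ZMod p)]
    AlgebraicClosure (LaurentSeries (ZMod p))) :=
  (autTransfer (laurentIso p).symm (laurentClosureIso p)
    (laurentClosureIso_algebraMap p)).toMonoidHom.comp (towerAut p)

theorem continuous_toLaurentGal : Continuous (toLaurentGal p) := by
  refine continuous_autHom _ fun x => ?_
  have e : {σ : H | toLaurentGal p σ x = x} =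
      {σ : H | towerAut p σ ((laurentClosureIso p).symm x) = (laurentClosureIso p).symm x} := by
    ext σ
    exact ((laurentClosureIso p).toEquiv.eq_symm_apply).symm
  rw [e]
  exact isOpen_stabilizer_tower _

theorem bijective_toLaurentGal : Function.Bijective (toLaurentGal p) := by
  rw [toLaurentGal, MonoidHom.coe_comp]
  exact (MulEquiv.bijective _).comp ⟨towerAut_injective, towerAut_surjective⟩

/-- The algebraic closure of the tower, read in `ℚ̄_p`. -/
def towerClosureIso : Ω ≃ₐ[cycInf p] AlgebraicClosure (cycInf p) := IsAlgClosure.equiv _ _ _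

/-- The group of the tower to the absolute group of the tower. -/
def toTowerGal :
    H →* (AlgebraicClosure (cycInf p) ≃ₐ[cycInf p] AlgebraicClosure (cycInf p)) :=
  (autTransfer (RingEquiv.refl (cycInf p)) (towerClosureIso p).toRingEquiv
    (towerClosureIso p).commutes).toMonoidHom.comp
      (IntermediateField.fixingSubgroupEquiv (cycInf p)).toMonoidHom

theorem continuous_toTowerGal : Continuous (toTowerGal p) := by
  refine continuous_autHom _ fun x => ?_
  have e : {σ : H | toTowerGal p σ x = x} =
      {σ : H | (σ : G) ((towerClosureIso p).symm x) = (towerClosureIso p).symm x} := by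
    ext σ
    exact ((towerClosureIso p).toEquiv.eq_symm_apply).symm
  rw [e]
  exact (stabilizer_isOpen_of_isIntegral ((towerClosureIso p).symm x)).preimage
    continuous_subtype_val

theorem bijective_toTowerGal : Function.Bijective (toTowerGal p) := by
  rw [toTowerGal, MonoidHom.coe_comp]
  exact (MulEquiv.bijective _).comp (MulEquiv.bijective _)

/-- The group of the tower is the absolute group of the tower. -/
def towerGalEquiv :
    H ≃ₜ* (AlgebraicClosure (cycInf p) ≃ₐ[cycInf p] AlgebraicClosure (cycInf p)) :=
  have : T2Space (AlgebraicClosure (cycInf p) ≃ₐ[cycInf p] AlgebraicClosure (cycInf p)) :=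
    krullTopology_t2
  contMulEquivOfBijective (toTowerGal p) (continuous_toTowerGal p) (bijective_toTowerGal p)

/-- The group of the tower is the absolute group of the Laurent series. -/
def laurentGalEquiv : H ≃ₜ* (AlgebraicClosure (LaurentSeries (ZMod p)) ≃ₐ[LaurentSeries (ZMod p)]
    AlgebraicClosure (LaurentSeries (ZMod p))) :=
  have : T2Space (AlgebraicClosure (LaurentSeries (ZMod p)) ≃ₐ[LaurentSeries (ZMod p)]
      AlgebraicClosure (LaurentSeries (ZMod p))) := krullTopology_t2
  contMulEquivOfBijective (toLaurentGal p) (continuous_toLaurentGal p) (bijective_toLaurentGal p)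

/-- **Fontaine–Wintenberger.** -/
def fontaineWintenbergerEquiv : Field.absoluteGaloisGroup (cycInf p) ≃ₜ*
    Field.absoluteGaloisGroup (LaurentSeries (ZMod p)) :=
  (towerGalEquiv p).symm.trans (laurentGalEquiv p)

theorem cycInf_eq_adjoin :
    cycInf p = IntermediateField.adjoin ℚ_[p] {z : Ω | ∃ n : ℕ, z ^ p ^ n = 1} := by
  refine le_antisymm (iSup_le fun n => IntermediateField.adjoin.mono _ _ _ fun z hz => ⟨n, hz⟩)
    (IntermediateField.adjoin_le_iff.2 ?_)
  rintro z ⟨n, hz⟩
  exact cycLevel_le_cycInf n (IntermediateField.subset_adjoin _ _ hz)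

/-- **Theorem of Fontaine and Wintenberger**: the absolute Galois groups of `ℚ_p(μ_{p^∞})` and
`𝔽_p((t))` are isomorphic. -/
theorem fontaine_wintenberger : Nonempty (Field.absoluteGaloisGroup
    (IntermediateField.adjoin ℚ_[p] {z : Ω | ∃ n : ℕ, z ^ p ^ n = 1}) ≃ₜ*
      Field.absoluteGaloisGroup (LaurentSeries (ZMod p))) := by
  rw [← cycInf_eq_adjoin]
  exact ⟨fontaineWintenbergerEquiv p⟩

end FA.FontaineWintenberger
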